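import Fermat.Agent.S55.H424.FieldIndex

/-!
# LPI (local power index), part 4: `|A ⧸ (n)| = q ^ v(n)` and the classical formulas

* `H424.card_quot_span_mul` : `|A ⧸ (a b)| = |A ⧸ (a)| * |A ⧸ (b)|` for `a` a non-zero-divisor.
* `H424.card_quot_span_pow` : `|A ⧸ (ϖ ^ k)| = |A ⧸ (ϖ)| ^ k`.
* `H424.index_range_pow_units_field_val` : for a complete discrete valuation ring `A` with
  finite residue field `k`, fraction field `K`, and `(n : A) = u * ϖ ^ v`:
  `[Kˣ : (Kˣ)ⁿ] = n * (|μ_n(K)| * |k| ^ v)`.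
* `H424.index_range_pow_units_field_of_isUnit` : if `n` is a unit of `A`:
  `[Kˣ : (Kˣ)ⁿ] = n * |μ_n(K)|`.
-/

set_option autoImplicit false
set_option linter.unusedSectionVars false

namespace Fermat.Agent.S55.H424

section General

variable {A : Type*} [CommRing A]

/-- `|A ⧸ (a b)| = |A ⧸ (a)| * |A ⧸ (b)|` for `a` a non-zero-divisor. -/
theorem card_quot_span_mul (a b : A) (ha : ∀ x : A, a * x = 0 → x = 0) :
    Nat.card (A ⧸ Ideal.span {a * b})
      = Nat.card (A ⧸ Ideal.span {a}) * Nat.card (A ⧸ Ideal.span {b}) := by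
  have hinj : Function.Injective (AddMonoidHom.mulLeft a) := by
    rw [injective_iff_map_eq_zero]
    intro x hx
    exact ha x hx
  have e1 : (Ideal.span {a * b}).toAddSubgroup
      = ((Ideal.span {b}).toAddSubgroup).map (AddMonoidHom.mulLeft a) := by
    ext x
    simp only [Submodule.mem_toAddSubgroup, Ideal.mem_span_singleton, AddSubgroup.mem_map,
      AddMonoidHom.coe_mulLeft]
    constructor
    · rintro ⟨c, rfl⟩
      exact ⟨b * c, ⟨c, rfl⟩, by ring⟩
    · rintro ⟨y, ⟨c, rfl⟩, rfl⟩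
      exact ⟨c, by ring⟩
  have e2 : (Ideal.span {a}).toAddSubgroup
      = (⊤ : AddSubgroup A).map (AddMonoidHom.mulLeft a) := by
    ext x
    simp only [Submodule.mem_toAddSubgroup, Ideal.mem_span_singleton, AddSubgroup.mem_map,
      AddSubgroup.mem_top, true_and, AddMonoidHom.coe_mulLeft]
    constructor
    · rintro ⟨c, rfl⟩
      exact ⟨c, rfl⟩
    · rintro ⟨c, rfl⟩
      exact ⟨c, rfl⟩
  have e4 : (((Ideal.span {b}).toAddSubgroup).map (AddMonoidHom.mulLeft a)).relIndex
        ((⊤ : AddSubgroup A).map (AddMonoidHom.mulLeft a))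
      * ((⊤ : AddSubgroup A).map (AddMonoidHom.mulLeft a)).index
      = (((Ideal.span {b}).toAddSubgroup).map (AddMonoidHom.mulLeft a)).index :=
    AddSubgroup.relIndex_mul_index (AddSubgroup.map_mono le_top)
  rw [AddSubgroup.relIndex_map_map_of_injective _ _ hinj, AddSubgroup.relIndex_top_right,
    ← e1, ← e2] at e4
  rw [← Submodule.cardQuot_apply, ← Submodule.cardQuot_apply, ← Submodule.cardQuot_apply]
  unfold Submodule.cardQuot
  rw [← e4, mul_comm]

/-- `|A ⧸ (ϖ ^ k)| = |A ⧸ (ϖ)| ^ k` for a non-zero-divisor `ϖ`. -/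
theorem card_quot_span_pow (ϖ : A) (hϖ : ∀ x : A, ϖ * x = 0 → x = 0) (k : ℕ) :
    Nat.card (A ⧸ Ideal.span {ϖ ^ k}) = Nat.card (A ⧸ Ideal.span {ϖ}) ^ k := by
  induction k with
  | zero =>
    rw [pow_zero, pow_zero, Ideal.span_singleton_one]
    have : Subsingleton (A ⧸ (⊤ : Ideal A)) := Ideal.Quotient.subsingleton_iff.2 rfl
    exact Nat.card_unique
  | succ k ih =>
    rw [pow_succ', card_quot_span_mul ϖ (ϖ ^ k) hϖ, ih, pow_succ']

/-- `|A ⧸ (u)| = 1` for a unit `u`. -/
theorem card_quot_span_of_isUnit {a : A} (ha : IsUnit a) :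
    Nat.card (A ⧸ Ideal.span {a}) = 1 := by
  rw [Ideal.span_singleton_eq_top.2 ha]
  have : Subsingleton (A ⧸ (⊤ : Ideal A)) := Ideal.Quotient.subsingleton_iff.2 rfl
  exact Nat.card_unique

end General

section DVR

open IsLocalRing

variable {A : Type*} [CommRing A] [IsDomain A] [IsDiscreteValuationRing A]

/-- `|A ⧸ (u ϖ ^ v)| = |k| ^ v` in a discrete valuation ring with residue field `k`. -/
theorem card_quot_span_dvr {ϖ : A} (hϖ : Irreducible ϖ) {a : A} {v : ℕ} {u : Aˣ}
    (hu : a = u * ϖ ^ v) :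
    Nat.card (A ⧸ Ideal.span {a}) = Nat.card (ResidueField A) ^ v := by
  have h1 : Ideal.span {a} = Ideal.span {ϖ ^ v} := by
    rw [hu, Ideal.span_singleton_eq_span_singleton]
    exact ⟨u⁻¹, by rw [mul_comm (u : A), mul_assoc, Units.mul_inv, mul_one]⟩
  have h2 : Nat.card (ResidueField A) = Nat.card (A ⧸ Ideal.span {ϖ}) := by
    rw [← hϖ.maximalIdeal_eq]
    rfl
  rw [h1, h2]
  exact card_quot_span_pow ϖ (fun x hx => (mul_eq_zero.1 hx).resolve_left hϖ.ne_zero) v

variable {K : Type*} [Field K] [Algebra A K] [IsFractionRing A K]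

/-- **Local power index, classical form.** For a complete discrete valuation ring `A` with
finite residue field `k`, fraction field `K` and `(n : A) = u * ϖ ^ v` (`ϖ` a uniformiser,
`u` a unit): `[Kˣ : (Kˣ)ⁿ] = n * (|μ_n(K)| * |k| ^ v)`. -/
theorem index_range_pow_units_field_val [IsAdicComplete (maximalIdeal A) A]
    [Finite (ResidueField A)] {ϖ : A} (hϖ : Irreducible ϖ) {n v : ℕ} {u : Aˣ}
    (hu : (n : A) = u * ϖ ^ v) :
    (powMonoidHom n : Kˣ →* Kˣ).range.index
      = n * (Nat.card (rootsOfUnity n K) * Nat.card (ResidueField A) ^ v) := by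
  have hn : (n : A) ≠ 0 := by
    rw [hu]
    exact mul_ne_zero u.ne_zero (pow_ne_zero v hϖ.ne_zero)
  rw [index_range_pow_units_field (K := K) hn, card_quot_span_dvr hϖ hu]

/-- **Local power index, prime-to-residue-characteristic case.** If `n` is a unit in `A`:
`[Kˣ : (Kˣ)ⁿ] = n * |μ_n(K)|`. -/
theorem index_range_pow_units_field_of_isUnit [IsAdicComplete (maximalIdeal A) A]
    [Finite (ResidueField A)] {n : ℕ} (hn : IsUnit (n : A)) :
    (powMonoidHom n : Kˣ →* Kˣ).range.index = n * Nat.card (rootsOfUnity n K) := by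
  rw [index_range_pow_units_field (K := K) hn.ne_zero, card_quot_span_of_isUnit hn, mul_one]

/-- The unit version: `[Aˣ : (Aˣ)ⁿ] = |μ_n(A)| * |k| ^ v`. -/
theorem index_range_pow_units_dvr_val [IsAdicComplete (maximalIdeal A) A]
    [Finite (ResidueField A)] {ϖ : A} (hϖ : Irreducible ϖ) {n v : ℕ} {u : Aˣ}
    (hu : (n : A) = u * ϖ ^ v) :
    (powMonoidHom n : Aˣ →* Aˣ).range.index
      = Nat.card (rootsOfUnity n A) * Nat.card (ResidueField A) ^ v := by
  have hn : (n : A) ≠ 0 := by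
    rw [hu]
    exact mul_ne_zero u.ne_zero (pow_ne_zero v hϖ.ne_zero)
  rw [index_range_pow_units_dvr hn, card_quot_span_dvr hϖ hu]

/-- In the complete DVR setting the `n`-th powers have finite index in `Kˣ`. -/
theorem index_range_pow_units_field_ne_zero [IsAdicComplete (maximalIdeal A) A]
    [Finite (ResidueField A)] {n : ℕ} (hn : (n : A) ≠ 0) :
    (powMonoidHom n : Kˣ →* Kˣ).range.index ≠ 0 := by
  obtain ⟨ϖ, hϖ⟩ := IsDiscreteValuationRing.exists_irreducible A
  obtain ⟨v, u, hu⟩ := IsDiscreteValuationRing.eq_unit_mul_pow_irreducible hn hϖ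
  have hn0 : n ≠ 0 := by rintro rfl; exact hn (by simp)
  rw [index_range_pow_units_field_val (K := K) hϖ hu]
  have h1 : Nat.card (rootsOfUnity n K) ≠ 0 := by
    have : NeZero n := ⟨hn0⟩
    exact Nat.card_pos.ne'
  have h2 : Nat.card (ResidueField A) ≠ 0 := Nat.card_pos.ne'
  exact mul_ne_zero hn0 (mul_ne_zero h1 (pow_ne_zero v h2))

end DVR

end Fermat.Agent.S55.H424
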