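import Fermat.Agent.S55.Local.H715.Integers
import Fermat.Agent.S55.H424.QuotCard

/-!
# LPI (local power index), part 5: statements in the language of layer L (`S55/Local`)

BASE `(A, F)`: complete DVR with finite residue field and its fraction field (char 0);
`L / F` a finite extension.  Then

* `H424.localField_index_range_pow` :
  `[Lˣ : (Lˣ)ⁿ] = n * (|μ_n(L)| * |A ⧸ (n)| ^ [L : F])`  (for `n ≠ 0`);
* `H424.localField_index_range_pow_of_isUnit` : `[Lˣ : (Lˣ)ⁿ] = n * |μ_n(L)|` if `n ∈ Aˣ`;
* `H424.localField_index_range_pow_ne_zero` : `(Lˣ)ⁿ` has finite index in `Lˣ`.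

No `Algebra A L` instance is needed in the statements.
-/

set_option autoImplicit false
set_option linter.unusedSectionVars false
set_option linter.style.haveILetI false

namespace Fermat.Agent.S55.H424

open Fermat.Agent.S55.Local Fermat.Agent.S55.Local.H715 IsLocalRing

section FreeIndex

variable {A M : Type*} [CommRing A] [Nontrivial A] [AddCommGroup M] [Module A M]
  [Module.Free A M] [Module.Finite A M]

/-- For a free module `M` of finite rank `r` over `A`: `[M : a M] = [A : a A] ^ r`. -/
theorem index_range_lsmul_of_free (a : A) :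
    (LinearMap.range (LinearMap.lsmul A M a)).toAddSubgroup.index
      = (Ideal.span {a}).toAddSubgroup.index ^ Module.finrank A M := by
  classical
  let e : M ≃ₗ[A] (Fin (Module.finrank A M) → A) := (Module.finBasis A M).equivFun
  have h1 : ((LinearMap.range (LinearMap.lsmul A M a)).toAddSubgroup).map
        (e.toAddEquiv : M →+ (Fin (Module.finrank A M) → A))
      = AddSubgroup.pi Set.univ
          (fun _ : Fin (Module.finrank A M) => (Ideal.span {a}).toAddSubgroup) := by
    ext f
    simp only [AddSubgroup.mem_map, Submodule.mem_toAddSubgroup, LinearMap.mem_range,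
      AddSubgroup.mem_pi, Set.mem_univ, forall_true_left, Ideal.mem_span_singleton]
    constructor
    · rintro ⟨_, ⟨m, rfl⟩, rfl⟩ i
      refine ⟨e m i, ?_⟩
      show e (a • m) i = a * e m i
      rw [map_smul]; rfl
    · intro h
      choose g hg using h
      refine ⟨a • e.symm g, ⟨e.symm g, rfl⟩, ?_⟩
      ext i
      show e (a • e.symm g) i = f i
      rw [map_smul, e.apply_symm_apply, hg i]; rfl
  rw [← AddSubgroup.index_map_equiv _ e.toAddEquiv, h1, AddSubgroup.index_pi, Finset.prod_const,
    Finset.card_univ, Fintype.card_fin]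

end FreeIndex

section Integers

variable (A F : Type) [CommRing A] [IsDomain A] [IsDiscreteValuationRing A]
  [IsAdicComplete (IsLocalRing.maximalIdeal A) A] [Finite (IsLocalRing.ResidueField A)]
  [Field F] [CharZero F] [Algebra A F] [IsFractionRing A F]
  (L : Type) [Field L] [Algebra F L] [FiniteDimensional F L]
  [Algebra A L] [IsScalarTower A F L]

include F

/-- `|O_L ⧸ (n)| = |A ⧸ (n)| ^ [L : F]`. -/
theorem card_quot_OL_natCast (n : ℕ) :
    Nat.card (integralClosure A L ⧸ Ideal.span {(n : integralClosure A L)})
      = Nat.card (A ⧸ Ideal.span {(n : A)}) ^ Module.finrank F L := by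
  haveI : Module.Finite A (integralClosure A L) := finite_OL A F L
  have hinj : Function.Injective (algebraMap A L) := by
    rw [IsScalarTower.algebraMap_eq A F L]
    exact (algebraMap F L).injective.comp (IsFractionRing.injective A F)
  haveI : Module.IsTorsionFree A L := by
    rw [← faithfulSMul_iff_algebraMap_injective] at hinj
    infer_instance
  haveI : Module.Free A (integralClosure A L) :=
    IsIntegralClosure.module_free A F L (integralClosure A L)
  have hr : Module.finrank A (integralClosure A L) = Module.finrank F L :=
    IsIntegralClosure.rank A F L (integralClosure A L)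
  rw [← Submodule.cardQuot_apply, ← Submodule.cardQuot_apply]
  unfold Submodule.cardQuot
  rw [← hr, ← index_range_lsmul_of_free (A := A) (M := integralClosure A L) (n : A)]
  congr 1
  ext x
  simp only [Submodule.mem_toAddSubgroup, Ideal.mem_span_singleton, LinearMap.mem_range,
    LinearMap.lsmul_apply]
  constructor
  · rintro ⟨c, rfl⟩
    exact ⟨c, by rw [Algebra.smul_def, map_natCast]⟩
  · rintro ⟨c, rfl⟩
    exact ⟨c, by rw [Algebra.smul_def, map_natCast]⟩

/-- Instance-based form of the local power index. -/
theorem index_range_pow_OL (n : ℕ) (hn : n ≠ 0) :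
    (powMonoidHom n : Lˣ →* Lˣ).range.index
      = n * (Nat.card (rootsOfUnity n L)
          * Nat.card (A ⧸ Ideal.span {(n : A)}) ^ Module.finrank F L) := by
  letI := isLocalRing_OL A F L
  haveI := isDiscreteValuationRing_OL A F L
  haveI := isAdicComplete_OL A F L
  haveI := finite_residueField_OL A F L
  haveI := isFractionRing_OL A F L
  haveI hchar : CharZero L := charZero_of_injective_algebraMap (algebraMap F L).injective
  have hn' : ((n : ℕ) : integralClosure A L) ≠ 0 := by
    intro h0
    have h1 := congrArg (algebraMap (integralClosure A L) L) h0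
    rw [map_natCast, map_zero] at h1
    exact hn (by exact_mod_cast h1)
  rw [index_range_pow_units_field (A := integralClosure A L) (K := L) hn',
    card_quot_OL_natCast A F L n]

end Integers

section InstanceFree

variable (A F : Type) [CommRing A] [IsDomain A] [IsDiscreteValuationRing A]
  [IsAdicComplete (IsLocalRing.maximalIdeal A) A] [Finite (IsLocalRing.ResidueField A)]
  [Field F] [CharZero F] [Algebra A F] [IsFractionRing A F]
  (L : Type) [Field L] [Algebra F L] [FiniteDimensional F L]

include A F

/-- **Local power index** for a local field `L` (finite over `F = Frac A`):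
`[Lˣ : (Lˣ)ⁿ] = n * (|μ_n(L)| * |A ⧸ (n)| ^ [L : F])`. -/
theorem localField_index_range_pow (n : ℕ) (hn : n ≠ 0) :
    (powMonoidHom n : Lˣ →* Lˣ).range.index
      = n * (Nat.card (rootsOfUnity n L)
          * Nat.card (A ⧸ Ideal.span {(n : A)}) ^ Module.finrank F L) := by
  letI : Algebra A L := algAL A F L
  haveI : IsScalarTower A F L := isScalarTower_algAL A F L
  exact index_range_pow_OL A F L n hn

/-- **Local power index**, prime-to-residue-characteristic case:
`[Lˣ : (Lˣ)ⁿ] = n * |μ_n(L)|` if `n` is a unit of `A`. -/
theorem localField_index_range_pow_of_isUnit (n : ℕ) (hn : IsUnit (n : A)) :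
    (powMonoidHom n : Lˣ →* Lˣ).range.index = n * Nat.card (rootsOfUnity n L) := by
  have hn0 : n ≠ 0 := by
    rintro rfl
    exact hn.ne_zero (by simp)
  rw [localField_index_range_pow A F L n hn0, card_quot_span_of_isUnit hn, one_pow, mul_one]

/-- The `n`-th powers have finite index in the multiplicative group of a local field. -/
theorem localField_index_range_pow_ne_zero (n : ℕ) (hn : n ≠ 0) :
    (powMonoidHom n : Lˣ →* Lˣ).range.index ≠ 0 := by
  rw [localField_index_range_pow A F L n hn]
  have hnA : (n : A) ≠ 0 := by
    intro h0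
    have h1 := congrArg (algebraMap A F) h0
    rw [map_natCast, map_zero] at h1
    exact hn (by exact_mod_cast h1)
  obtain ⟨ϖ, hϖ⟩ := IsDiscreteValuationRing.exists_irreducible A
  obtain ⟨v, u, hu⟩ := IsDiscreteValuationRing.eq_unit_mul_pow_irreducible hnA hϖ
  have h1 : Nat.card (rootsOfUnity n L) ≠ 0 := by
    haveI : NeZero n := ⟨hn⟩
    exact Nat.card_pos.ne'
  have h2 : Nat.card (ResidueField A) ≠ 0 := Nat.card_pos.ne'
  rw [card_quot_span_dvr hϖ hu]
  exact mul_ne_zero hn (mul_ne_zero h1 (pow_ne_zero _ (pow_ne_zero v h2)))

end InstanceFree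

end Fermat.Agent.S55.H424
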