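import Fermat.Agent.S55.H424.KummerIntermediate

/-!
# Finiteness of level-constant `H¹` from Kummer theory (abstract core of `FIN-loc`)

`k₀` a field of characteristic zero with algebraic closure `Ω`, `G = Gal(Ω/k₀)`, such that
`Eˣ / (Eˣ)^p` is finite for every finite `E / k₀` inside `Ω`.  Let `N` be an `𝔽_p[G]`-module on
which `Gal(Ω/E₀)` acts trivially for some finite `E₀`.

* `cocycle_right_invariant_of_kummer` : there is ONE finite `E₁ ⊇ E₀` such that every
  level-constant 1-cocycle `G → N` is right-invariant under `Gal(Ω/E₁)`.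
* `finiteDimensional_of_kummer` : if moreover `N` is finite-dimensional, any submodule of
  level-constant 1-cocycles is finite-dimensional.
-/

set_option autoImplicit false
set_option linter.unusedSectionVars false
set_option linter.style.haveILetI false

namespace Fermat.Agent.S55.H424

open groupCohomology

section Abstract

/-- A space of functions `G → N` which are right-invariant under a subgroup of finite index
is finite-dimensional. -/
theorem finite_of_right_invariant {k G N : Type*} [Field k] [Group G] [AddCommGroup N]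
    [Module k N] [FiniteDimensional k N] (W : Subgroup G) [W.FiniteIndex]
    (C : Submodule k (G → N)) (hC : ∀ c ∈ C, ∀ g : G, ∀ s ∈ W, c (g * s) = c g) :
    FiniteDimensional k C := by
  classical
  haveI : Finite (G ⧸ W) := Subgroup.finite_quotient_of_finiteIndex
  let Φ : C →ₗ[k] (G ⧸ W → N) :=
    { toFun := fun c x => (c : G → N) (Quotient.out x)
      map_add' := fun c c' => rfl
      map_smul' := fun a c => rfl }
  have hΦ : Function.Injective Φ := by
    rw [injective_iff_map_eq_zero]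
    intro c hc
    apply Subtype.ext
    funext g
    obtain ⟨h, hh⟩ := QuotientGroup.mk_out_eq_mul W g
    have h1 : (c : G → N) (Quotient.out (QuotientGroup.mk g : G ⧸ W)) = 0 :=
      congrFun hc (QuotientGroup.mk g)
    rw [hh, hC c c.2 g h h.2] at h1
    exact h1
  exact Module.Finite.of_injective Φ hΦ

/-- The Galois group of `Ω` over a finite subextension has finite index. -/
theorem fixingSubgroup_finiteIndex {k₀ Ω : Type*} [Field k₀] [Field Ω] [Algebra k₀ Ω]
    [Normal k₀ Ω] (E : IntermediateField k₀ Ω) [FiniteDimensional k₀ E] :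
    E.fixingSubgroup.FiniteIndex := by
  let M : IntermediateField k₀ Ω := IntermediateField.normalClosure k₀ E Ω
  haveI : FiniteDimensional k₀ M := normalClosure.is_finiteDimensional k₀ E Ω
  haveI : Normal k₀ M := normalClosure.normal k₀ E Ω
  haveI : Finite (M ≃ₐ[k₀] M) := inferInstance
  haveI : (AlgEquiv.restrictNormalHom (F := k₀) (K₁ := Ω) M).ker.FiniteIndex :=
    Subgroup.finiteIndex_ker _
  refine Subgroup.finiteIndex_of_le (H := (AlgEquiv.restrictNormalHom (F := k₀) (K₁ := Ω) M).ker) ?_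
  rw [IntermediateField.restrictNormalHom_ker]
  exact IntermediateField.fixingSubgroup_le (IntermediateField.le_normalClosure E)

end Abstract

section Kummer

variable {k₀ Ω : Type} [Field k₀] [Field Ω] [Algebra k₀ Ω] [CharZero k₀] [IsAlgClosure k₀ Ω]

theorem cocycle_right_invariant_of_kummer (p : ℕ) [Fact p.Prime]
    (hLPI : ∀ E : IntermediateField k₀ Ω, FiniteDimensional k₀ E →
      (powMonoidHom p : (↥E)ˣ →* (↥E)ˣ).range.index ≠ 0)
    (N : Rep.{0, 0, 0} (ZMod p) (Ω ≃ₐ[k₀] Ω))
    (E₀ : IntermediateField k₀ Ω) [FiniteDimensional k₀ E₀]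
    (hN : ∀ s ∈ E₀.fixingSubgroup, ∀ a : N, N.ρ s a = a) :
    ∃ E₁ : IntermediateField k₀ Ω, FiniteDimensional k₀ E₁ ∧ E₀ ≤ E₁ ∧
      ∀ c ∈ cocycles₁ N,
        (∃ E' : IntermediateField k₀ Ω, FiniteDimensional k₀ E' ∧
          ∀ g s : Ω ≃ₐ[k₀] Ω, s ∈ E'.fixingSubgroup → c (g * s) = c g) →
        ∀ g s : Ω ≃ₐ[k₀] Ω, s ∈ E₁.fixingSubgroup → c (g * s) = c g := by
  classical
  obtain ⟨E₁, hE₁fin, hle, hE₁⟩ :=
    exists_kummer_level_intermediate (k₀ := k₀) (Ω := Ω) p (Fact.out : p.Prime).ne_zero hLPI E₀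
  refine ⟨E₁, hE₁fin, hle, ?_⟩
  rintro c hc ⟨E', hE'fin, hE'⟩ g s hs
  have hcoc := (mem_cocycles₁_iff c).1 hc
  have hc1 : c 1 = 0 := cocycles₁_map_one ⟨c, hc⟩
  have hsE₀ : s ∈ E₀.fixingSubgroup := IntermediateField.fixingSubgroup_le hle hs
  -- `c s = 0`
  have hcs : c s = 0 := by
    rw [← Module.forall_dual_apply_eq_zero_iff (ZMod p) (c s)]
    intro l
    refine hE₁ (fun t => l (c t)) ?_ ⟨E', hE'fin, ?_⟩ s hs
    · intro g' hg' h' _
      show l (c (g' * h')) = l (c g') + l (c h')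
      rw [hcoc g' h', hN g' hg', map_add, add_comm]
    · intro t ht
      show l (c t) = 0
      have h1 := hE' 1 t ht
      rw [one_mul, hc1] at h1
      rw [h1, map_zero]
  rw [hcoc g s, hcs, map_zero, zero_add]

theorem finiteDimensional_of_kummer (p : ℕ) [Fact p.Prime]
    (hLPI : ∀ E : IntermediateField k₀ Ω, FiniteDimensional k₀ E →
      (powMonoidHom p : (↥E)ˣ →* (↥E)ˣ).range.index ≠ 0)
    (N : Rep.{0, 0, 0} (ZMod p) (Ω ≃ₐ[k₀] Ω)) [FiniteDimensional (ZMod p) N]
    (E₀ : IntermediateField k₀ Ω) [FiniteDimensional k₀ E₀]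
    (hN : ∀ s ∈ E₀.fixingSubgroup, ∀ a : N, N.ρ s a = a)
    (C : Submodule (ZMod p) ((Ω ≃ₐ[k₀] Ω) → N))
    (hC : ∀ c ∈ C, c ∈ cocycles₁ N ∧
      ∃ E' : IntermediateField k₀ Ω, FiniteDimensional k₀ E' ∧
        ∀ g s : Ω ≃ₐ[k₀] Ω, s ∈ E'.fixingSubgroup → c (g * s) = c g) :
    FiniteDimensional (ZMod p) C := by
  haveI : Normal k₀ Ω := IsAlgClosure.normal k₀ Ω
  obtain ⟨E₁, hE₁fin, -, hE₁⟩ := cocycle_right_invariant_of_kummer p hLPI N E₀ hN
  haveI := hE₁fin
  haveI : E₁.fixingSubgroup.FiniteIndex := fixingSubgroup_finiteIndex E₁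
  exact finite_of_right_invariant E₁.fixingSubgroup C
    (fun c hc g s hs => hE₁ c (hC c hc).1 (hC c hc).2 g s hs)

end Kummer

end Fermat.Agent.S55.H424
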