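import Fermat.Prelude.Def_ExtEndgame_ProductionDatum
import Fermat.Prelude.Def_GroupCohomology_ContinuousH1
import Fermat.Agent.S55.Bridge.Krasner
import Fermat.Agent.S55.H424.LocalPow
import Fermat.Agent.S55.H424.FinH1Core

/-!
# `FIN-loc` in Prelude terms: level-constant 1-cocycles of `G_{ℚ_q}` form a finite-dim. space

For `N` a finite-dimensional `𝔽_p`-representation of the Prelude's local Galois group
`primeLocalGaloisGroup q` on which some level `r⁻¹(G_F)` (`F/ℚ` finite) acts trivially, the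
space `cocycles₁ N ⊓ levelCochains₁ (primeLocalToGlobal q) N` of level-constant 1-cocycles is
finite-dimensional (`prime_finiteDimensional_levelCocycles`).  Hence so is every quotient, in
particular the level-constant `H¹` (layer D input A2 = `PT.FinLocSpec`).

Inputs: local power index `[Eˣ : (Eˣ)^p] < ∞` (`H424.localField_index_range_pow_ne_zero`),
Kummer theory via Hilbert 90 (`H424.exists_kummer_level`), Krasner (`Bridge/Krasner.lean`).
-/

set_option autoImplicit false
set_option linter.unusedSectionVars false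
set_option linter.style.haveILetI false

namespace Fermat.Agent.S55.H424

open groupCohomology ExtCitation

/-- Local power index for finite extensions of `ℚ_q` inside `PadicAlgCl q`. -/
theorem padic_index_range_pow_ne_zero (q : ℕ) [Fact q.Prime]
    (E : IntermediateField ℚ_[q] (PadicAlgCl q)) (hE : FiniteDimensional ℚ_[q] E)
    (n : ℕ) (hn : n ≠ 0) :
    (powMonoidHom n : (↥E)ˣ →* (↥E)ˣ).range.index ≠ 0 :=
  localField_index_range_pow_ne_zero ℤ_[q] ℚ_[q] ↥E n hn

/-- There is one finite `E₁/ℚ_q` such that all level-constant 1-cocycles are right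
`Gal(ℚ̄_q/E₁)`-invariant. -/
theorem padic_cocycle_right_invariant (p : ℕ) [Fact p.Prime] (q : ℕ) [Fact q.Prime]
    (N : Rep.{0, 0, 0} (ZMod p) (PadicAlgCl q ≃ₐ[ℚ_[q]] PadicAlgCl q))
    (hN : ∃ F : IntermediateField ℚ (AlgebraicClosure ℚ), FiniteDimensional ℚ F ∧
      ∀ s, localGaloisToGlobal q s ∈ F.fixingSubgroup → ∀ a : N, N.ρ s a = a) :
    ∃ E₁ : IntermediateField ℚ_[q] (PadicAlgCl q), FiniteDimensional ℚ_[q] E₁ ∧
      ∀ c ∈ cocycles₁ N, IsLevelConstant₁ (localGaloisToGlobal q) c →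
        ∀ g s : PadicAlgCl q ≃ₐ[ℚ_[q]] PadicAlgCl q, s ∈ E₁.fixingSubgroup → c (g * s) = c g := by
  obtain ⟨F, hF, hFN⟩ := hN
  haveI := hF
  obtain ⟨E₀, hE₀, hE₀F⟩ := Bridge.exists_local_level_of_global q F
  haveI := hE₀
  obtain ⟨E₁, hE₁fin, -, hE₁⟩ := cocycle_right_invariant_of_kummer (k₀ := ℚ_[q])
    (Ω := PadicAlgCl q) p
    (fun E hE => padic_index_range_pow_ne_zero q E hE p (Fact.out : p.Prime).ne_zero) N E₀
    (fun s hs a => hFN s (hE₀F s hs) a)
  exact ⟨E₁, hE₁fin, fun c hc hlc g s hs =>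
    hE₁ c hc ((Bridge.isLevelConstant₁_local_iff q c).1 hlc) g s hs⟩

/-- `FIN-loc`, cocycle form, for `Gal(ℚ̄_q/ℚ_q)`. -/
theorem padic_finiteDimensional_levelCocycles (p : ℕ) [Fact p.Prime] (q : ℕ) [Fact q.Prime]
    (N : Rep.{0, 0, 0} (ZMod p) (PadicAlgCl q ≃ₐ[ℚ_[q]] PadicAlgCl q))
    [FiniteDimensional (ZMod p) N]
    (hN : ∃ F : IntermediateField ℚ (AlgebraicClosure ℚ), FiniteDimensional ℚ F ∧
      ∀ s, localGaloisToGlobal q s ∈ F.fixingSubgroup → ∀ a : N, N.ρ s a = a) :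
    FiniteDimensional (ZMod p)
      ↥(cocycles₁ N ⊓ levelCochains₁ (localGaloisToGlobal q) N) := by
  haveI : Normal ℚ_[q] (PadicAlgCl q) := IsAlgClosure.normal ℚ_[q] (PadicAlgCl q)
  obtain ⟨E₁, hE₁fin, hE₁⟩ := padic_cocycle_right_invariant p q N hN
  haveI := hE₁fin
  haveI : E₁.fixingSubgroup.FiniteIndex := fixingSubgroup_finiteIndex E₁
  exact finite_of_right_invariant E₁.fixingSubgroup _
    (fun c hc g s hs => hE₁ c hc.1 hc.2 g s hs)

/-- `FIN-loc`, cocycle form, for the Prelude's `primeLocalGaloisGroup q`. -/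
theorem prime_finiteDimensional_levelCocycles (p : ℕ) [Fact p.Prime] (q : Nat.Primes)
    (N : Rep.{0, 0, 0} (ZMod p) (primeLocalGaloisGroup q)) [FiniteDimensional (ZMod p) N]
    (hN : ∃ F : IntermediateField ℚ (AlgebraicClosure ℚ), FiniteDimensional ℚ F ∧
      ∀ s, primeLocalToGlobal q s ∈ F.fixingSubgroup → ∀ a : N, N.ρ s a = a) :
    FiniteDimensional (ZMod p)
      ↥(cocycles₁ N ⊓ levelCochains₁ (primeLocalToGlobal q) N) := by
  letI : Fact (q : ℕ).Prime := ⟨q.2⟩
  exact padic_finiteDimensional_levelCocycles p (q : ℕ) N hN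

/-- The single level killing all level-constant cocycles, in Prelude terms:
a finite `F₁/ℚ` such that every level-constant 1-cocycle is right-invariant under
`r⁻¹(G_{F₁})`. -/
theorem prime_cocycle_right_invariant (p : ℕ) [Fact p.Prime] (q : Nat.Primes)
    (N : Rep.{0, 0, 0} (ZMod p) (primeLocalGaloisGroup q))
    (hN : ∃ F : IntermediateField ℚ (AlgebraicClosure ℚ), FiniteDimensional ℚ F ∧
      ∀ s, primeLocalToGlobal q s ∈ F.fixingSubgroup → ∀ a : N, N.ρ s a = a) :
    ∃ F₁ : IntermediateField ℚ (AlgebraicClosure ℚ), FiniteDimensional ℚ F₁ ∧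
      ∀ c ∈ cocycles₁ N, IsLevelConstant₁ (primeLocalToGlobal q) c →
        ∀ g s : primeLocalGaloisGroup q, primeLocalToGlobal q s ∈ F₁.fixingSubgroup →
          c (g * s) = c g := by
  letI : Fact (q : ℕ).Prime := ⟨q.2⟩
  obtain ⟨E₁, hE₁fin, hE₁⟩ := padic_cocycle_right_invariant p (q : ℕ) N hN
  haveI := hE₁fin
  obtain ⟨F₁, hF₁, hF₁E⟩ := Bridge.exists_global_level_of_local (q : ℕ) E₁
  exact ⟨F₁, hF₁, fun c hc hlc g s hs => hE₁ c hc hlc g s (hF₁E s hs)⟩

end Fermat.Agent.S55.H424
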