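import Fermat.Agent.S55.H424.FinH1Core

/-!
# Pull-backs of Galois groups of finite subextensions have finite index
-/

set_option autoImplicit false
set_option linter.unusedSectionVars false
set_option linter.style.haveILetI false

namespace Fermat.Agent.S55.H424

/-- For `r : G → Gal(Ω/k₀)` and `E/k₀` finite, `r⁻¹(Gal(Ω/E))` has finite index in `G`. -/
theorem comap_fixingSubgroup_finiteIndex {G : Type*} [Group G] {k₀ Ω : Type*} [Field k₀]
    [Field Ω] [Algebra k₀ Ω] [Normal k₀ Ω] (r : G →* (Ω ≃ₐ[k₀] Ω))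
    (E : IntermediateField k₀ Ω) [FiniteDimensional k₀ E] :
    (E.fixingSubgroup.comap r).FiniteIndex := by
  let M : IntermediateField k₀ Ω := IntermediateField.normalClosure k₀ E Ω
  haveI : FiniteDimensional k₀ M := normalClosure.is_finiteDimensional k₀ E Ω
  haveI : Normal k₀ M := normalClosure.normal k₀ E Ω
  haveI : Finite (M ≃ₐ[k₀] M) := inferInstance
  let ψ : G →* (M ≃ₐ[k₀] M) := (AlgEquiv.restrictNormalHom (F := k₀) (K₁ := Ω) M).comp r
  haveI : ψ.ker.FiniteIndex := Subgroup.finiteIndex_ker ψ
  refine Subgroup.finiteIndex_of_le (H := ψ.ker) ?_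
  intro g hg
  rw [Subgroup.mem_comap]
  have h1 : r g ∈ (AlgEquiv.restrictNormalHom (F := k₀) (K₁ := Ω) M).ker := hg
  rw [IntermediateField.restrictNormalHom_ker] at h1
  exact IntermediateField.fixingSubgroup_le (IntermediateField.le_normalClosure E) h1

end Fermat.Agent.S55.H424
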