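import Fermat.Agent.S55.L.Spec
import Fermat.Agent.S55.H424.QuotCard

/-!
# LPI (local power index), part 6: statements for intrinsic local fields `[IsLocalFld K]`
(outer layer `Fermat.Agent.S55.L`, architect helper54)

* `H424.isLocalFld_index_range_pow` : for `A` a ring of integers of `K` and `n ≠ 0`:
  `[Kˣ : (Kˣ)ⁿ] = n * (|μ_n(K)| * |A ⧸ (n)|)`;
* `H424.isLocalFld_index_range_pow_of_isUnit` : `= n * |μ_n(K)|` if `n ∈ Aˣ`;
* `H424.isLocalFld_index_range_pow_ne_zero` : `(Kˣ)ⁿ` has finite index in `Kˣ`;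
* `H424.isLocalFld_finite_quotient_pow` : `Kˣ ⧸ (Kˣ)ⁿ` is finite.
-/

set_option autoImplicit false
set_option linter.unusedSectionVars false
set_option linter.style.haveILetI false

namespace Fermat.Agent.S55.H424

open Fermat.Agent.S55.L IsLocalRing

variable (K : Type) [Field K] [IsLocalFld K]

/-- **Local power index** for an intrinsic local field. -/
theorem isLocalFld_index_range_pow (A : ValuationSubring K) (hA : IsLocalRingOfIntegers A)
    (n : ℕ) (hn : n ≠ 0) :
    (powMonoidHom n : Kˣ →* Kˣ).range.index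
      = n * (Nat.card (rootsOfUnity n K) * Nat.card (A ⧸ Ideal.span {(n : A)})) := by
  obtain ⟨hA1, hA2, hA3⟩ := hA
  haveI := (‹IsLocalFld K›).charZero
  haveI := hA1
  haveI := hA2
  haveI := hA3
  have hn' : ((n : ℕ) : A) ≠ 0 := by
    intro h0
    have h1 := congrArg (algebraMap A K) h0
    rw [map_natCast, map_zero] at h1
    exact hn (by exact_mod_cast h1)
  exact index_range_pow_units_field (A := A) (K := K) hn'

/-- **Local power index**, classical form with the valuation `v` of `n`. -/
theorem isLocalFld_index_range_pow_val (A : ValuationSubring K) (hA : IsLocalRingOfIntegers A)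
    {ϖ : A} (hϖ : Irreducible ϖ) {n v : ℕ} {u : Aˣ} (hu : (n : A) = u * ϖ ^ v) :
    (powMonoidHom n : Kˣ →* Kˣ).range.index
      = n * (Nat.card (rootsOfUnity n K) * Nat.card (ResidueField A) ^ v) := by
  obtain ⟨hA1, hA2, hA3⟩ := hA
  haveI := hA1
  haveI := hA2
  haveI := hA3
  exact index_range_pow_units_field_val (A := A) (K := K) hϖ hu

/-- **Local power index**, prime-to-residue-characteristic case. -/
theorem isLocalFld_index_range_pow_of_isUnit (A : ValuationSubring K)
    (hA : IsLocalRingOfIntegers A) (n : ℕ) (hn : IsUnit (n : A)) :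
    (powMonoidHom n : Kˣ →* Kˣ).range.index = n * Nat.card (rootsOfUnity n K) := by
  obtain ⟨hA1, hA2, hA3⟩ := hA
  haveI := hA1
  haveI := hA2
  haveI := hA3
  exact index_range_pow_units_field_of_isUnit (A := A) (K := K) hn

/-- The `n`-th powers have finite index in `Kˣ`. -/
theorem isLocalFld_index_range_pow_ne_zero (n : ℕ) (hn : n ≠ 0) :
    (powMonoidHom n : Kˣ →* Kˣ).range.index ≠ 0 := by
  obtain ⟨A, hA1, hA2, hA3⟩ := (‹IsLocalFld K›).exists_ringOfIntegers
  haveI := (‹IsLocalFld K›).charZero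
  haveI := hA1
  haveI := hA2
  haveI := hA3
  have hn' : ((n : ℕ) : A) ≠ 0 := by
    intro h0
    have h1 := congrArg (algebraMap A K) h0
    rw [map_natCast, map_zero] at h1
    exact hn (by exact_mod_cast h1)
  exact index_range_pow_units_field_ne_zero (A := A) (K := K) hn'

/-- `Kˣ ⧸ (Kˣ)ⁿ` is finite. -/
theorem isLocalFld_finite_quotient_pow (n : ℕ) (hn : n ≠ 0) :
    Finite (Kˣ ⧸ (powMonoidHom n : Kˣ →* Kˣ).range) := by
  haveI : (powMonoidHom n : Kˣ →* Kˣ).range.FiniteIndex :=
    ⟨isLocalFld_index_range_pow_ne_zero K n hn⟩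
  exact Subgroup.finite_quotient_of_finiteIndex

end Fermat.Agent.S55.H424
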