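import Mathlib

/-!
# LPI (local power index), part 1: `x ↦ x ^ n` on principal congruence units

Setting: a commutative ring `A`, an element `ϖ : A` such that `A` is `ϖ`-adically
complete and Hausdorff, a natural number `n` and `v : ℕ` with `(n : A) ∣ ϖ ^ v`
(for a discrete valuation ring with uniformiser `ϖ` this says `v(n) ≤ v`).

Main results (for `v + 1 ≤ m`):

* `H424.eq_one_of_pow_eq_one` : if `x ≡ 1 mod ϖ ^ m` and `x ^ n = 1` then `x = 1`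
  (needs `n` to be a non-zero-divisor);
* `H424.exists_pow_eq` : every `w ≡ 1 mod n * ϖ ^ m` is `x ^ n` for some `x ≡ 1 mod ϖ ^ m`.

Everything is elementary (a Newton iteration), Mathlib only.
-/

set_option autoImplicit false

namespace Fermat.Agent.S55.H424

variable {A : Type*} [CommRing A]

/-- Second-order binomial expansion: `(1 + a) ^ n = 1 + n a + c a ^ 2`. -/
lemma one_add_pow_expand (a : A) (n : ℕ) :
    ∃ c : A, (1 + a) ^ n = 1 + (n : A) * a + c * a ^ 2 := by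
  induction n with
  | zero => exact ⟨0, by simp⟩
  | succ n ih =>
    obtain ⟨c, hc⟩ := ih
    refine ⟨n + c + c * a, ?_⟩
    rw [pow_succ, hc]
    push_cast
    ring

/-- `ϖ`-adic Hausdorffness in elementary form. -/
lemma eq_zero_of_forall_pow_dvd (ϖ : A) [IsHausdorff (Ideal.span {ϖ}) A] {x : A}
    (h : ∀ k : ℕ, ϖ ^ k ∣ x) : x = 0 := by
  apply IsHausdorff.haus' (I := Ideal.span {ϖ}) x
  intro k
  rw [SModEq.zero, smul_eq_mul, Ideal.mul_top, Ideal.span_singleton_pow,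
    Ideal.mem_span_singleton]
  exact h k

/-- A sequence whose consecutive differences are divisible by `ϖ ^ k` is Cauchy. -/
lemma pow_dvd_sub_of_succ (ϖ : A) (f : ℕ → A) (h : ∀ k : ℕ, ϖ ^ k ∣ f (k + 1) - f k)
    (k j : ℕ) : ϖ ^ k ∣ f (k + j) - f k := by
  induction j with
  | zero => simp
  | succ j ih =>
    have h1 : ϖ ^ k ∣ f (k + j + 1) - f (k + j) :=
      (pow_dvd_pow ϖ (Nat.le_add_right k j)).trans (h (k + j))
    have h2 : f (k + (j + 1)) - f k = (f (k + j + 1) - f (k + j)) + (f (k + j) - f k) := by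
      rw [← add_assoc]; ring
    rw [h2]
    exact dvd_add h1 ih

/-- `ϖ`-adic precompleteness in elementary form. -/
lemma exists_adic_limit (ϖ : A) [IsPrecomplete (Ideal.span {ϖ}) A] (f : ℕ → A)
    (h : ∀ k : ℕ, ϖ ^ k ∣ f (k + 1) - f k) : ∃ L : A, ∀ k : ℕ, ϖ ^ k ∣ L - f k := by
  obtain ⟨L, hL⟩ := IsPrecomplete.prec' (I := Ideal.span {ϖ}) f (by
    intro m n hmn
    rw [SModEq.sub_mem, smul_eq_mul, Ideal.mul_top, Ideal.span_singleton_pow,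
      Ideal.mem_span_singleton]
    obtain ⟨j, rfl⟩ := Nat.exists_eq_add_of_le hmn
    have h3 := pow_dvd_sub_of_succ ϖ f h m j
    have h4 : f m - f (m + j) = -(f (m + j) - f m) := by ring
    rw [h4]
    exact (dvd_neg).2 h3)
  refine ⟨L, fun k => ?_⟩
  have h5 := hL k
  rw [SModEq.sub_mem, smul_eq_mul, Ideal.mul_top, Ideal.span_singleton_pow,
    Ideal.mem_span_singleton] at h5
  have h6 : L - f k = -(f k - L) := by ring
  rw [h6]
  exact (dvd_neg).2 h5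

/-- If `(n : A) ∣ ϖ ^ v` and `ϖ` is a non-zero-divisor then so is `n`. -/
lemma natCast_nzd_of_dvd_pow {ϖ : A} {n v : ℕ} (hϖ : ∀ x : A, ϖ * x = 0 → x = 0)
    (hN : (n : A) ∣ ϖ ^ v) : ∀ x : A, (n : A) * x = 0 → x = 0 := by
  obtain ⟨w, hw⟩ := hN
  have hpow : ∀ (k : ℕ) (x : A), ϖ ^ k * x = 0 → x = 0 := by
    intro k
    induction k with
    | zero => intro x hx; simpa using hx
    | succ k ih =>
      intro x hx
      apply ih
      apply hϖ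
      rw [← hx]; ring
  intro x hx
  apply hpow v
  rw [hw]
  calc (n : A) * w * x = w * ((n : A) * x) := by ring
    _ = 0 := by rw [hx, mul_zero]

/-- One induction step of the uniqueness argument. -/
lemma pow_succ_dvd_of_pow_eq_one {ϖ : A} {n v : ℕ} (hN : (n : A) ∣ ϖ ^ v)
    (hnzd : ∀ x : A, (n : A) * x = 0 → x = 0) {j : ℕ} (hj : v + 1 ≤ j) {a : A}
    (ha : ϖ ^ j ∣ a) (han : (1 + a) ^ n = 1) : ϖ ^ (j + 1) ∣ a := by
  obtain ⟨w, hw⟩ := hN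
  obtain ⟨a', rfl⟩ := ha
  obtain ⟨d, rfl⟩ := Nat.exists_eq_add_of_le hj
  obtain ⟨c, hc⟩ := one_add_pow_expand (ϖ ^ (v + 1 + d) * a') n
  rw [han] at hc
  have h1 : (ϖ ^ (v + 1 + d) * a') ^ 2 = ϖ ^ v * (ϖ ^ (v + 1 + d + 1) * (ϖ ^ d * a' ^ 2)) := by
    ring
  rw [h1, hw] at hc
  have h2 : (n : A) * (ϖ ^ (v + 1 + d) * a' + c * w * (ϖ ^ (v + 1 + d + 1) * (ϖ ^ d * a' ^ 2)))
      = 0 := by
    have h3 : (1 : A) + (n : A) * (ϖ ^ (v + 1 + d) * a')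
        + c * ((n : A) * w * (ϖ ^ (v + 1 + d + 1) * (ϖ ^ d * a' ^ 2))) - 1 = 0 := by
      rw [← hc]; ring
    rw [← h3]; ring
  have h4 := hnzd _ h2
  have h5 : ϖ ^ (v + 1 + d) * a' = ϖ ^ (v + 1 + d + 1) * (-(c * w * (ϖ ^ d * a' ^ 2))) := by
    have h6 := eq_neg_of_add_eq_zero_left h4
    rw [h6]; ring
  rw [h5]
  exact Dvd.intro _ rfl

/-- **Uniqueness.** If `x ≡ 1 mod ϖ ^ m` with `m ≥ v + 1`, `(n : A) ∣ ϖ ^ v`, `n` a
non-zero-divisor and `A` is `ϖ`-adically Hausdorff, then `x ^ n = 1` forces `x = 1`. -/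
theorem eq_one_of_pow_eq_one (ϖ : A) [IsHausdorff (Ideal.span {ϖ}) A] {n v m : ℕ}
    (hN : (n : A) ∣ ϖ ^ v) (hnzd : ∀ x : A, (n : A) * x = 0 → x = 0) (hm : v + 1 ≤ m)
    {x : A} (hx : ϖ ^ m ∣ x - 1) (hxn : x ^ n = 1) : x = 1 := by
  have han : (1 + (x - 1)) ^ n = 1 := by
    rw [← hxn]; congr 1; ring
  have key : ∀ j : ℕ, m ≤ j → ϖ ^ j ∣ x - 1 := by
    intro j hj
    induction j, hj using Nat.le_induction with
    | base => exact hx
    | succ j hj ih => exact pow_succ_dvd_of_pow_eq_one hN hnzd (hm.trans hj) ih han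
  have h0 : x - 1 = 0 := by
    apply eq_zero_of_forall_pow_dvd ϖ
    intro k
    exact (pow_dvd_pow ϖ (Nat.le_add_left k m)).trans (key (m + k) (Nat.le_add_right m k))
  exact sub_eq_zero.1 h0

/-- One Newton step. -/
lemma newton_step {ϖ : A} {n v m : ℕ} (hN : (n : A) ∣ ϖ ^ v) (hm : v + 1 ≤ m) {w : A}
    (k : ℕ) {x : A} (hx1 : ϖ ^ m ∣ x - 1) (hx2 : (n : A) * ϖ ^ (m + k) ∣ w - x ^ n) :
    ∃ x' : A, ϖ ^ m ∣ x' - 1 ∧ (n : A) * ϖ ^ (m + k + 1) ∣ w - x' ^ n ∧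
      ϖ ^ (m + k) ∣ x' - x := by
  obtain ⟨w0, hw0⟩ := hN
  obtain ⟨t, ht⟩ := hx2
  obtain ⟨d, rfl⟩ := Nat.exists_eq_add_of_le hm
  obtain ⟨e, he⟩ := one_add_pow_expand (ϖ ^ (v + 1 + d + k) * t) n
  -- `ϖ ∣ 1 - x ^ n`
  have hϖ1 : ϖ ∣ x - 1 := (dvd_pow_self ϖ (by omega : v + 1 + d ≠ 0)).trans hx1
  obtain ⟨r, hr⟩ : ϖ ∣ x ^ n - 1 := by
    have h1 := sub_dvd_pow_sub_pow x 1 n
    rw [one_pow] at h1
    exact hϖ1.trans h1
  refine ⟨x * (1 + ϖ ^ (v + 1 + d + k) * t), ?_, ?_, ?_⟩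
  · have h2 : x * (1 + ϖ ^ (v + 1 + d + k) * t) - 1
        = (x - 1) + ϖ ^ (v + 1 + d) * (ϖ ^ k * t * x) := by ring
    rw [h2]
    exact dvd_add hx1 (Dvd.intro _ rfl)
  · have h3 : w - (x * (1 + ϖ ^ (v + 1 + d + k) * t)) ^ n
        = (w - x ^ n) - x ^ n * ((n : A) * (ϖ ^ (v + 1 + d + k) * t))
          - x ^ n * e * (ϖ ^ (v + 1 + d + k) * t) ^ 2 := by
      rw [mul_pow, he]; ring
    have h4 : (ϖ ^ (v + 1 + d + k) * t) ^ 2
        = ϖ ^ v * (ϖ ^ (v + 1 + d + k + 1) * (ϖ ^ (d + k) * t ^ 2)) := by ring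
    have hx' : x ^ n = 1 + ϖ * r := by rw [← hr]; ring
    rw [h3, h4, hw0, ht, hx']
    refine ⟨-(r * t) - (1 + ϖ * r) * (r * t) * 0 - (1 + ϖ * r) * e * w0 * (ϖ ^ (d + k) * t ^ 2), ?_⟩
    ring
  · have h5 : x * (1 + ϖ ^ (v + 1 + d + k) * t) - x = ϖ ^ (v + 1 + d + k) * (t * x) := by ring
    rw [h5]
    exact Dvd.intro _ rfl

/-- **Existence.** If `A` is `ϖ`-adically complete, `(n : A) ∣ ϖ ^ v` and `m ≥ v + 1`, then
every `w ≡ 1 mod n * ϖ ^ m` is the `n`-th power of some `x ≡ 1 mod ϖ ^ m`. -/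
theorem exists_pow_eq (ϖ : A) [IsAdicComplete (Ideal.span {ϖ}) A] {n v m : ℕ}
    (hN : (n : A) ∣ ϖ ^ v) (hm : v + 1 ≤ m) {w : A} (hw : (n : A) * ϖ ^ m ∣ w - 1) :
    ∃ x : A, ϖ ^ m ∣ x - 1 ∧ x ^ n = w := by
  -- the Newton sequence
  choose g hg1 hg2 hg3 using
    fun (k : ℕ) (x : {x : A // ϖ ^ m ∣ x - 1 ∧ (n : A) * ϖ ^ (m + k) ∣ w - x ^ n}) =>
      newton_step hN hm (w := w) k x.2.1 x.2.2
  let s : ∀ k : ℕ, {x : A // ϖ ^ m ∣ x - 1 ∧ (n : A) * ϖ ^ (m + k) ∣ w - x ^ n} :=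
    fun k => Nat.rec (motive := fun k =>
        {x : A // ϖ ^ m ∣ x - 1 ∧ (n : A) * ϖ ^ (m + k) ∣ w - x ^ n})
      ⟨1, by simp, by simpa using hw⟩
      (fun k x => ⟨g k x, hg1 k x, hg2 k x⟩) k
  have hs : ∀ k, (s (k + 1)).1 = g k (s k) := fun k => rfl
  have hcauchy : ∀ k : ℕ, ϖ ^ k ∣ (s (k + 1)).1 - (s k).1 := by
    intro k
    rw [hs]
    exact (pow_dvd_pow ϖ (Nat.le_add_left k m)).trans (hg3 k (s k))
  obtain ⟨L, hL⟩ := exists_adic_limit ϖ (fun k => (s k).1) hcauchy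
  refine ⟨L, ?_, ?_⟩
  · have h1 : L - 1 = (L - (s m).1) + ((s m).1 - 1) := by ring
    rw [h1]
    exact dvd_add (hL m) (s m).2.1
  · have h0 : w - L ^ n = 0 := by
      apply eq_zero_of_forall_pow_dvd ϖ
      intro k
      have h2 : w - L ^ n = (w - (s k).1 ^ n) - (L ^ n - (s k).1 ^ n) := by ring
      rw [h2]
      apply dvd_sub
      · have h7 : ϖ ^ k ∣ (n : A) * ϖ ^ (m + k) :=
          (pow_dvd_pow ϖ (Nat.le_add_left k m)).trans (Dvd.intro_left _ rfl)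
        exact h7.trans (s k).2.2
      · exact (hL k).trans (sub_dvd_pow_sub_pow L (s k).1 n)
    exact (sub_eq_zero.1 h0).symm

end Fermat.Agent.S55.H424
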