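import Fermat.Agent.S55.H424.PowIndex

/-!
# LPI (local power index), part 3: the index of `n`-th powers in `Kˣ`

* `H424.index_range_pow_of_split` : abstract form.  If `G = π^ℤ × ι(H)` then
  `[G : Gⁿ] = n * [H : Hⁿ]`.
* `H424.index_range_pow_units_dvr` : for a complete discrete valuation ring `A` with finite
  residue field and `(n : A) ≠ 0`: `[Aˣ : (Aˣ)ⁿ] = |μ_n(A)| * |A ⧸ (n)|`.
* `H424.index_range_pow_units_field` : for its fraction field `K`:
  `[Kˣ : (Kˣ)ⁿ] = n * (|μ_n(K)| * |A ⧸ (n)|)`.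
-/

set_option autoImplicit false
set_option linter.unusedSectionVars false

namespace Fermat.Agent.S55.H424

section Abstract

/-- The index of `n`-th powers in `Multiplicative ℤ` is `n`. -/
lemma index_range_pow_int (n : ℕ) :
    (powMonoidHom n : Multiplicative ℤ →* Multiplicative ℤ).range.index = n := by
  have h1 : (powMonoidHom n : Multiplicative ℤ →* Multiplicative ℤ).range
      = AddSubgroup.toSubgroup (AddSubgroup.zmultiples (n : ℤ)) := by
    ext x
    constructor
    · rintro ⟨y, rfl⟩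
      show Multiplicative.toAdd (y ^ n) ∈ AddSubgroup.zmultiples (n : ℤ)
      rw [toAdd_pow, AddSubgroup.mem_zmultiples_iff]
      exact ⟨Multiplicative.toAdd y, by rw [smul_eq_mul, nsmul_eq_mul]; ring⟩
    · intro hx
      have hx' : Multiplicative.toAdd x ∈ AddSubgroup.zmultiples (n : ℤ) := hx
      obtain ⟨k, hk⟩ := AddSubgroup.mem_zmultiples_iff.1 hx'
      refine ⟨Multiplicative.ofAdd k, ?_⟩
      show (Multiplicative.ofAdd k) ^ n = x
      rw [← ofAdd_nsmul]
      apply Multiplicative.toAdd.injective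
      rw [toAdd_ofAdd, ← hk, smul_eq_mul, nsmul_eq_mul]; ring
  rw [h1, AddSubgroup.index_toSubgroup, Int.index_zmultiples, Int.natAbs_natCast]

variable {G H : Type*} [CommGroup G] [CommGroup H]

/-- The homomorphism `(k, h) ↦ π ^ k * ι h`. -/
noncomputable def splitHom (ι : H →* G) (π : G) : Multiplicative ℤ × H →* G :=
  (zpowersHom G π).coprod ι

lemma splitHom_apply (ι : H →* G) (π : G) (p : Multiplicative ℤ × H) :
    splitHom ι π p = π ^ (Multiplicative.toAdd p.1) * ι p.2 := by
  simp [splitHom]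

lemma splitHom_bijective (ι : H →* G) (hι : Function.Injective ι) (π : G)
    (h1 : ∀ g : G, ∃ (k : ℤ) (h : H), g = π ^ k * ι h)
    (h2 : ∀ (k : ℤ) (h : H), π ^ k = ι h → k = 0) : Function.Bijective (splitHom ι π) := by
  constructor
  · rw [injective_iff_map_eq_one]
    rintro ⟨k, h⟩ hkh
    rw [splitHom_apply] at hkh
    have h3 : π ^ (Multiplicative.toAdd k) = ι h⁻¹ := by
      rw [map_inv]; exact eq_inv_of_mul_eq_one_left hkh
    have h4 : Multiplicative.toAdd k = 0 := h2 _ _ h3
    rw [h4, zpow_zero, one_mul] at hkh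
    have h6 : h = 1 := hι (by rw [hkh, map_one])
    have h5 : k = 1 := Multiplicative.toAdd.injective (by rw [h4]; rfl)
    rw [h5, h6]; rfl
  · intro g
    obtain ⟨k, h, rfl⟩ := h1 g
    exact ⟨(Multiplicative.ofAdd k, h), by rw [splitHom_apply]; rfl⟩

/-- **Abstract split form.** If every element of `G` is uniquely `π ^ k * ι h`, then
`[G : Gⁿ] = n * [H : Hⁿ]`. -/
theorem index_range_pow_of_split (ι : H →* G) (hι : Function.Injective ι) (π : G)
    (h1 : ∀ g : G, ∃ (k : ℤ) (h : H), g = π ^ k * ι h)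
    (h2 : ∀ (k : ℤ) (h : H), π ^ k = ι h → k = 0) (n : ℕ) :
    (powMonoidHom n : G →* G).range.index = n * (powMonoidHom n : H →* H).range.index := by
  have hb := splitHom_bijective ι hι π h1 h2
  have e1 : (powMonoidHom n : G →* G).range
      = ((powMonoidHom n : Multiplicative ℤ →* Multiplicative ℤ).range.prod
          (powMonoidHom n : H →* H).range).map (splitHom ι π) := by
    ext g
    constructor
    · rintro ⟨x, rfl⟩
      obtain ⟨p, rfl⟩ := hb.2 x
      refine ⟨p ^ n, ?_, ?_⟩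
      · exact ⟨⟨p.1, rfl⟩, ⟨p.2, rfl⟩⟩
      · rw [map_pow]; rfl
    · rintro ⟨p, ⟨⟨a, ha⟩, ⟨b, hb'⟩⟩, rfl⟩
      refine ⟨splitHom ι π (a, b), ?_⟩
      show (splitHom ι π (a, b)) ^ n = _
      rw [← map_pow]
      congr 1
      exact Prod.ext ha hb'
  rw [e1, Subgroup.index_map_of_bijective hb, Subgroup.index_prod, index_range_pow_int]

/-- In the split situation, the `n`-torsion of `G` is that of `H` (for `n ≠ 0`). -/
theorem map_ker_pow_of_split (ι : H →* G) (π : G)
    (h1 : ∀ g : G, ∃ (k : ℤ) (h : H), g = π ^ k * ι h)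
    (h2 : ∀ (k : ℤ) (h : H), π ^ k = ι h → k = 0) {n : ℕ} (hn : n ≠ 0)
    (hι : Function.Injective ι) :
    (powMonoidHom n : H →* H).ker.map ι = (powMonoidHom n : G →* G).ker := by
  ext g
  constructor
  · rintro ⟨h, hh, rfl⟩
    have hh' : h ^ n = 1 := MonoidHom.mem_ker.1 hh
    apply MonoidHom.mem_ker.2
    show (ι h) ^ n = 1
    rw [← map_pow, hh', map_one]
  · intro hg
    have hg' : g ^ n = 1 := hg
    obtain ⟨k, h, rfl⟩ := h1 g
    have h3 : π ^ (k * (n : ℤ)) = ι ((h ^ n)⁻¹) := by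
      rw [map_inv, map_pow]
      apply eq_inv_of_mul_eq_one_left
      rw [zpow_mul, zpow_natCast, ← mul_pow]
      exact hg'
    have h4 := h2 _ _ h3
    have h5 : k = 0 := by
      rcases mul_eq_zero.1 h4 with h | h
      · exact h
      · exact absurd (by exact_mod_cast h) hn
    subst h5
    rw [zpow_zero, one_mul] at hg' ⊢
    refine ⟨h, MonoidHom.mem_ker.2 ?_, rfl⟩
    show h ^ n = 1
    apply hι
    rw [map_pow, hg', map_one]

end Abstract

section DVR

open IsLocalRing

variable {A : Type*} [CommRing A] [IsDomain A] [IsDiscreteValuationRing A]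

/-- **Local power index, DVR form.** For a complete discrete valuation ring `A` with finite
residue field and `(n : A) ≠ 0`: `[Aˣ : (Aˣ)ⁿ] = |μ_n(A)| * |A ⧸ (n)|`. -/
theorem index_range_pow_units_dvr [IsAdicComplete (maximalIdeal A) A]
    [Finite (ResidueField A)] {n : ℕ} (hn : (n : A) ≠ 0) :
    (powMonoidHom n : Aˣ →* Aˣ).range.index
      = Nat.card (rootsOfUnity n A) * Nat.card (A ⧸ Ideal.span {(n : A)}) := by
  obtain ⟨ϖ, hϖ⟩ := IsDiscreteValuationRing.exists_irreducible A
  have hmax : maximalIdeal A = Ideal.span {ϖ} := hϖ.maximalIdeal_eq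
  have hc : IsAdicComplete (Ideal.span {ϖ}) A :=
    hmax ▸ (inferInstance : IsAdicComplete (maximalIdeal A) A)
  have hf : Finite (A ⧸ Ideal.span {ϖ}) := by
    rw [← hmax]; exact (inferInstance : Finite (ResidueField A))
  obtain ⟨v, u, hu⟩ := IsDiscreteValuationRing.eq_unit_mul_pow_irreducible hn hϖ
  have hN : (n : A) ∣ ϖ ^ v := ⟨((u⁻¹ : Aˣ) : A), by
    rw [hu, mul_comm (u : A), mul_assoc, Units.mul_inv, mul_one]⟩
  have hn0 : n ≠ 0 := by rintro rfl; exact hn (by simp)
  exact index_range_pow_units ϖ (fun x hx => (mul_eq_zero.1 hx).resolve_left hϖ.ne_zero) hn0 hN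

variable {K : Type*} [Field K] [Algebra A K] [IsFractionRing A K]

/-- The inclusion `Aˣ → Kˣ`. -/
noncomputable def unitsToField (A K : Type*) [CommRing A] [Field K] [Algebra A K] : Aˣ →* Kˣ :=
  Units.map (algebraMap A K : A →* K)

lemma coe_unitsToField (u : Aˣ) : ((unitsToField A K u : Kˣ) : K) = algebraMap A K (u : A) := rfl

lemma unitsToField_injective : Function.Injective (unitsToField A K) :=
  Units.map_injective (IsFractionRing.injective A K)

/-- A uniformiser, as a unit of `K`. -/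
noncomputable def unifUnit (K : Type*) [Field K] [Algebra A K] [IsFractionRing A K] {ϖ : A}
    (hϖ : Irreducible ϖ) : Kˣ :=
  Units.mk0 (algebraMap A K ϖ) (by
    intro h0
    exact hϖ.ne_zero ((IsFractionRing.injective A K) (by rw [h0, map_zero])))

lemma coe_unifUnit {ϖ : A} (hϖ : Irreducible ϖ) :
    ((unifUnit K hϖ : Kˣ) : K) = algebraMap A K ϖ := rfl

lemma exists_eq_unif_zpow_mul {ϖ : A} (hϖ : Irreducible ϖ) (g : Kˣ) :
    ∃ (k : ℤ) (h : Aˣ), g = unifUnit K hϖ ^ k * unitsToField A K h := by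
  obtain ⟨a, b, hb, hab⟩ := IsFractionRing.div_surjective A (g : K)
  have hb0 : b ≠ 0 := nonZeroDivisors.ne_zero hb
  have ha0 : a ≠ 0 := by
    rintro rfl
    rw [map_zero, zero_div] at hab
    exact g.ne_zero hab.symm
  obtain ⟨i, u, hu⟩ := IsDiscreteValuationRing.eq_unit_mul_pow_irreducible ha0 hϖ
  obtain ⟨j, u', hu'⟩ := IsDiscreteValuationRing.eq_unit_mul_pow_irreducible hb0 hϖ
  refine ⟨(i : ℤ) - (j : ℤ), u * u'⁻¹, ?_⟩
  apply Units.ext
  have hX : algebraMap A K ϖ ≠ 0 := (unifUnit K hϖ).ne_zero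
  have hU' : algebraMap A K (u' : A) ≠ 0 := (unitsToField A K u').ne_zero
  have hinv : algebraMap A K ((u'⁻¹ : Aˣ) : A) = (algebraMap A K (u' : A))⁻¹ := by
    apply eq_inv_of_mul_eq_one_left
    rw [← map_mul, Units.inv_mul, map_one]
  rw [Units.val_mul, Units.val_zpow_eq_zpow_val, coe_unifUnit, coe_unitsToField, ← hab, hu, hu',
    Units.val_mul, map_mul, map_mul, map_mul, map_pow, map_pow, hinv, zpow_sub₀ hX,
    zpow_natCast, zpow_natCast]
  field_simp

lemma unif_zpow_eq_unit {ϖ : A} (hϖ : Irreducible ϖ) (k : ℤ) (h : Aˣ)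
    (hk : unifUnit K hϖ ^ k = unitsToField A K h) : k = 0 := by
  have key : ∀ (i : ℕ) (h : Aˣ), unifUnit K hϖ ^ (i + 1) ≠ unitsToField A K h := by
    intro i h heq
    have h1 := congrArg (fun z : Kˣ => (z : K)) heq
    simp only [Units.val_pow_eq_pow_val, coe_unifUnit, coe_unitsToField] at h1
    rw [← map_pow] at h1
    have h2 : ϖ ^ (i + 1) = (h : A) := IsFractionRing.injective A K h1
    have h3 : IsUnit (ϖ ^ (i + 1)) := by rw [h2]; exact h.isUnit
    exact hϖ.not_isUnit ((isUnit_pow_iff (Nat.succ_ne_zero i)).1 h3)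
  rcases Int.eq_nat_or_neg k with ⟨m, rfl | rfl⟩
  · rcases m with _ | i
    · rfl
    · exfalso
      rw [zpow_natCast] at hk
      exact key i h hk
  · rcases m with _ | i
    · simp
    · exfalso
      rw [zpow_neg, zpow_natCast, inv_eq_iff_eq_inv, ← map_inv] at hk
      exact key i h⁻¹ hk

/-- Roots of unity of `K` lie in `A`. -/
theorem card_rootsOfUnity_dvr_eq {n : ℕ} (hn : n ≠ 0) :
    Nat.card (rootsOfUnity n A) = Nat.card (rootsOfUnity n K) := by
  obtain ⟨ϖ, hϖ⟩ := IsDiscreteValuationRing.exists_irreducible A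
  have h1 := map_ker_pow_of_split (unitsToField A K) (unifUnit K hϖ)
    (exists_eq_unif_zpow_mul hϖ) (unif_zpow_eq_unit hϖ) hn unitsToField_injective
  rw [ker_powMonoidHom_units, ker_powMonoidHom_units] at h1
  rw [← h1, Subgroup.card_map_of_injective unitsToField_injective]

/-- **Local power index, field form.** For a complete discrete valuation ring `A` with
finite residue field, fraction field `K` and `(n : A) ≠ 0`:
`[Kˣ : (Kˣ)ⁿ] = n * (|μ_n(K)| * |A ⧸ (n)|)`. -/
theorem index_range_pow_units_field [IsAdicComplete (maximalIdeal A) A]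
    [Finite (ResidueField A)] {n : ℕ} (hn : (n : A) ≠ 0) :
    (powMonoidHom n : Kˣ →* Kˣ).range.index
      = n * (Nat.card (rootsOfUnity n K) * Nat.card (A ⧸ Ideal.span {(n : A)})) := by
  obtain ⟨ϖ, hϖ⟩ := IsDiscreteValuationRing.exists_irreducible A
  have hn0 : n ≠ 0 := by rintro rfl; exact hn (by simp)
  rw [index_range_pow_of_split (unitsToField A K) unitsToField_injective (unifUnit K hϖ)
    (exists_eq_unif_zpow_mul hϖ) (unif_zpow_eq_unit hϖ) n, index_range_pow_units_dvr hn,
    card_rootsOfUnity_dvr_eq (K := K) hn0]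

end DVR

end Fermat.Agent.S55.H424
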