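import Fermat.Agent.S55.H424.KummerLevel

/-!
# Kummer level for intermediate fields (input of `FIN-loc`)

`k₀` a field of characteristic zero with algebraic closure `Ω`.  Assume that for every finite
subextension `E / k₀` of `Ω` the group `Eˣ / (Eˣ)ⁿ` is finite (true for `k₀ = ℚ_q`).  Then for
every finite `E` there is a finite `E₁ ⊇ E` such that every map `φ : Gal(Ω/k₀) → ℤ/n` which is
additive on `Gal(Ω/E)` and vanishes on some `Gal(Ω/E')` (`E'` finite) vanishes on `Gal(Ω/E₁)`.

No root of unity is required in `E`: `E₁` contains `E(ζ_n)`.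
-/

set_option autoImplicit false
set_option linter.unusedSectionVars false
set_option linter.style.haveILetI false

namespace Fermat.Agent.S55.H424

section KummerIntermediate

variable {k₀ Ω : Type*} [Field k₀] [Field Ω] [Algebra k₀ Ω] [CharZero k₀] [IsAlgClosure k₀ Ω]

/-- An automorphism fixing an intermediate field `E`, as an `E`-algebra automorphism. -/
noncomputable def fixingToAlgEquiv (E : IntermediateField k₀ Ω) (g : Ω ≃ₐ[k₀] Ω)
    (hg : g ∈ E.fixingSubgroup) : Ω ≃ₐ[E] Ω :=
  IntermediateField.fixingSubgroupEquiv E ⟨g, hg⟩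

theorem fixingToAlgEquiv_apply (E : IntermediateField k₀ Ω) (g : Ω ≃ₐ[k₀] Ω)
    (hg : g ∈ E.fixingSubgroup) (x : Ω) : fixingToAlgEquiv E g hg x = g x := rfl

theorem restrictScalars_mem_fixingSubgroup (E : IntermediateField k₀ Ω) (σ : Ω ≃ₐ[E] Ω) :
    σ.restrictScalars k₀ ∈ E.fixingSubgroup := by
  rw [IntermediateField.mem_fixingSubgroup_iff]
  intro x hx
  exact σ.commutes ⟨x, hx⟩

theorem exists_kummer_level_intermediate (n : ℕ) (hn : n ≠ 0)
    (hLPI : ∀ E : IntermediateField k₀ Ω, FiniteDimensional k₀ E →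
      (powMonoidHom n : (↥E)ˣ →* (↥E)ˣ).range.index ≠ 0)
    (E : IntermediateField k₀ Ω) [FiniteDimensional k₀ E] :
    ∃ E₁ : IntermediateField k₀ Ω, FiniteDimensional k₀ E₁ ∧ E ≤ E₁ ∧
      ∀ φ : (Ω ≃ₐ[k₀] Ω) → ZMod n,
        (∀ g ∈ E.fixingSubgroup, ∀ h ∈ E.fixingSubgroup, φ (g * h) = φ g + φ h) →
        (∃ E' : IntermediateField k₀ Ω, FiniteDimensional k₀ E' ∧
          ∀ g ∈ E'.fixingSubgroup, φ g = 0) →
        ∀ g ∈ E₁.fixingSubgroup, φ g = 0 := by
  classical
  haveI : IsAlgClosed Ω := IsAlgClosure.isAlgClosed k₀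
  haveI : Algebra.IsAlgebraic k₀ Ω := IsAlgClosure.isAlgebraic
  haveI : CharZero Ω := charZero_of_injective_algebraMap (algebraMap k₀ Ω).injective
  haveI : NeZero (n : Ω) := ⟨Nat.cast_ne_zero.2 hn⟩
  obtain ⟨ζ, hζ⟩ := HasEnoughRootsOfUnity.exists_primitiveRoot Ω n
  -- the field `E(ζ)`
  let Z : IntermediateField k₀ Ω := IntermediateField.adjoin k₀ {ζ}
  haveI : FiniteDimensional k₀ Z :=
    IntermediateField.adjoin.finiteDimensional (Algebra.IsIntegral.isIntegral ζ)
  let Ez : IntermediateField k₀ Ω := E ⊔ Z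
  haveI : FiniteDimensional k₀ Ez := IntermediateField.finiteDimensional_sup E Z
  have hEEz : E ≤ Ez := le_sup_left
  have hζEz : ζ ∈ Ez :=
    (le_sup_right : Z ≤ Ez) (IntermediateField.subset_adjoin k₀ _ (Set.mem_singleton ζ))
  haveI : IsAlgClosure Ez Ω := ⟨inferInstance, inferInstance⟩
  have hζ' : IsPrimitiveRoot (⟨ζ, hζEz⟩ : Ez) n :=
    IsPrimitiveRoot.of_map_of_injective (f := algebraMap Ez Ω) (by exact hζ)
      (algebraMap Ez Ω).injective
  obtain ⟨K', hK'fin, hK'⟩ :=
    exists_kummer_level_add (K := Ez) (Ω := Ω) n hn ⟨ζ, hζEz⟩ hζ' (hLPI Ez inferInstance)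
  haveI := hK'fin
  refine ⟨K'.restrictScalars k₀, ?_, ?_, ?_⟩
  · -- finite-dimensionality
    haveI : Module.Finite Ez K' := hK'fin
    exact Module.Finite.trans (R := k₀) (A := Ez) (M := K')
  · intro x hx
    exact K'.algebraMap_mem (⟨x, hEEz hx⟩ : Ez)
  · rintro φ hφ ⟨E', hE'fin, hE'⟩ g hg
    haveI := hE'fin
    -- `g` fixes `Ez`
    have hgEz : g ∈ Ez.fixingSubgroup := by
      rw [IntermediateField.mem_fixingSubgroup_iff]
      intro x hx
      exact (IntermediateField.mem_fixingSubgroup_iff _ g).1 hg x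
        (K'.algebraMap_mem (⟨x, hx⟩ : Ez))
    -- the character on `Gal(Ω/Ez)`
    let φ' : (Ω ≃ₐ[Ez] Ω) → ZMod n := fun σ => φ (σ.restrictScalars k₀)
    have hφ' : ∀ σ τ : Ω ≃ₐ[Ez] Ω, φ' (σ * τ) = φ' σ + φ' τ := by
      intro σ τ
      have h1 : (σ * τ).restrictScalars k₀ = σ.restrictScalars k₀ * τ.restrictScalars k₀ := rfl
      show φ ((σ * τ).restrictScalars k₀) = _
      rw [h1]
      exact hφ _ (IntermediateField.fixingSubgroup_le hEEz
        (restrictScalars_mem_fixingSubgroup Ez σ)) _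
        (IntermediateField.fixingSubgroup_le hEEz (restrictScalars_mem_fixingSubgroup Ez τ))
    -- a finite level on which `φ'` vanishes
    let M₀ : IntermediateField k₀ Ω := E' ⊔ Ez
    haveI : FiniteDimensional k₀ M₀ := IntermediateField.finiteDimensional_sup E' Ez
    have hEzM₀ : Ez ≤ M₀ := le_sup_right
    let M : IntermediateField Ez Ω := IntermediateField.extendScalars hEzM₀
    have hMfin : FiniteDimensional Ez M := by
      haveI : Module.Finite k₀ M := (inferInstance : FiniteDimensional k₀ M₀)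
      exact Module.Finite.right k₀ Ez M
    have hM : ∀ σ ∈ M.fixingSubgroup, φ' σ = 0 := by
      intro σ hσ
      apply hE'
      rw [IntermediateField.mem_fixingSubgroup_iff]
      intro x hx
      have hxM : x ∈ M := (IntermediateField.mem_extendScalars hEzM₀).2
        ((le_sup_left : E' ≤ M₀) hx)
      exact (IntermediateField.mem_fixingSubgroup_iff M σ).1 hσ x hxM
    have key := hK' φ' hφ' ⟨M, hMfin, hM⟩ (fixingToAlgEquiv Ez g hgEz) (by
      rw [IntermediateField.mem_fixingSubgroup_iff]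
      intro x hx
      rw [fixingToAlgEquiv_apply]
      exact (IntermediateField.mem_fixingSubgroup_iff _ g).1 hg x hx)
    have hres : (fixingToAlgEquiv Ez g hgEz).restrictScalars k₀ = g := by
      apply AlgEquiv.ext
      intro x
      rfl
    show φ g = 0
    have : φ' (fixingToAlgEquiv Ez g hgEz) = φ g := by
      show φ ((fixingToAlgEquiv Ez g hgEz).restrictScalars k₀) = φ g
      rw [hres]
    rw [← this]
    exact key

end KummerIntermediate

end Fermat.Agent.S55.H424
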