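import Mathlib

/-!
# Kummer finiteness of continuous characters (input of `FIN-loc`, layer KL of S55)

Let `K` be a field of characteristic zero containing a primitive `n`-th root of unity, with
algebraic closure `Ω`, and assume that `Kˣ / (Kˣ)ⁿ` is finite (for local fields this is the
local power index, `H424.isLocalFld_index_range_pow_ne_zero`).  Then there is ONE finite
extension `K' / K` inside `Ω` such that every continuous character `χ` of `Gal(Ω/K)` with
`χ ^ n = 1` is trivial on `Gal(Ω/K')`.  ("Continuous" = trivial on `Gal(Ω/M)` for some finite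
`M / K`.)

* `H424.exists_kummer_level` : characters with values in `Kˣ`;
* `H424.exists_kummer_level_zmod` : characters with values in `Multiplicative (ZMod n)`.

Proof: Hilbert 90 (Mathlib) on a finite Galois level through which `χ` factors gives `β` with
`σ β = χ(σ) β`; then `β ^ n ∈ K`, hence `β ∈ K' := K(ⁿ√ representatives of Kˣ/(Kˣ)ⁿ)`.
-/

set_option autoImplicit false
set_option linter.unusedSectionVars false
set_option linter.style.haveILetI false

namespace Fermat.Agent.S55.H424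

open IntermediateField

section KummerLevel

variable {K Ω : Type*} [Field K] [Field Ω] [Algebra K Ω] [CharZero K] [IsAlgClosure K Ω]

/-- The field generated by chosen `n`-th roots of representatives of `Kˣ / (Kˣ)ⁿ` contains
every `n`-th root of every element of `Kˣ`. -/
theorem exists_finite_containing_roots (n : ℕ) (hn : n ≠ 0) (ζ : K) (hζ : IsPrimitiveRoot ζ n)
    (hfin : (powMonoidHom n : Kˣ →* Kˣ).range.index ≠ 0) :
    ∃ K' : IntermediateField K Ω, FiniteDimensional K K' ∧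
      ∀ (a : Kˣ) (α : Ω), α ^ n = algebraMap K Ω (a : K) → α ∈ K' := by
  classical
  haveI : NeZero n := ⟨hn⟩
  haveI : IsAlgClosed Ω := IsAlgClosure.isAlgClosed K
  haveI : Algebra.IsAlgebraic K Ω := IsAlgClosure.isAlgebraic
  haveI : (powMonoidHom n : Kˣ →* Kˣ).range.FiniteIndex := ⟨hfin⟩
  haveI : Finite (Kˣ ⧸ (powMonoidHom n : Kˣ →* Kˣ).range) :=
    Subgroup.finite_quotient_of_finiteIndex
  -- representatives and their roots
  have hroot : ∀ c : Kˣ ⧸ (powMonoidHom n : Kˣ →* Kˣ).range,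
      ∃ ρ : Ω, ρ ^ n = algebraMap K Ω ((Quotient.out c : Kˣ) : K) :=
    fun c => IsAlgClosed.exists_pow_nat_eq _ (Nat.pos_of_ne_zero hn)
  choose ρ hρ using hroot
  haveI : Finite (Set.range ρ) := (Set.finite_range ρ).to_subtype
  refine ⟨IntermediateField.adjoin K (Set.range ρ),
    IntermediateField.finiteDimensional_adjoin
      (fun x _ => (Algebra.IsAlgebraic.isAlgebraic x).isIntegral), ?_⟩
  intro a α hα
  set c : Kˣ ⧸ (powMonoidHom n : Kˣ →* Kˣ).range := QuotientGroup.mk a with hc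
  have hout : (QuotientGroup.mk (Quotient.out c) : Kˣ ⧸ (powMonoidHom n : Kˣ →* Kˣ).range) = c :=
    Quotient.out_eq c
  have hmem : (Quotient.out c : Kˣ)⁻¹ * a ∈ (powMonoidHom n : Kˣ →* Kˣ).range :=
    QuotientGroup.eq.1 hout
  obtain ⟨b, hb⟩ := hmem
  have hb' : (b : K) ^ n = ((Quotient.out c : Kˣ) : K)⁻¹ * (a : K) := by
    have h1 := congrArg (fun u : Kˣ => (u : K)) hb
    simpa using h1
  have hr0 : ((Quotient.out c : Kˣ) : K) ≠ 0 := Units.ne_zero _
  have hρ0 : ρ c ≠ 0 := by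
    intro h0
    have h2 := hρ c
    rw [h0, zero_pow hn] at h2
    exact hr0 ((algebraMap K Ω).injective (by rw [← h2, map_zero]))
  have hb0 : algebraMap K Ω (b : K) ≠ 0 := by
    simp
  have hξ : (α / (ρ c * algebraMap K Ω (b : K))) ^ n = 1 := by
    rw [div_pow, mul_pow, hα, hρ c, ← map_pow, hb', ← map_mul]
    have h3 : ((Quotient.out c : Kˣ) : K) * (((Quotient.out c : Kˣ) : K)⁻¹ * (a : K)) = (a : K) := by
      field_simp
    rw [h3]
    exact div_self (by simp)
  obtain ⟨i, -, hi⟩ :=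
    (hζ.map_of_injective (algebraMap K Ω).injective).eq_pow_of_pow_eq_one hξ
  have hα' : α = algebraMap K Ω ζ ^ i * (ρ c * algebraMap K Ω (b : K)) := by
    rw [hi]
    field_simp
  rw [hα']
  exact mul_mem (pow_mem (IntermediateField.algebraMap_mem _ _) _)
    (mul_mem (IntermediateField.subset_adjoin K _ ⟨c, rfl⟩) (IntermediateField.algebraMap_mem _ _))

/-- **Kummer level.**  If `K ∋ ζ_n` and `Kˣ / (Kˣ)ⁿ` is finite, there is a finite extension
`K' / K` inside `Ω` such that every continuous character `χ : Gal(Ω/K) → Kˣ` with `χ ^ n = 1`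
is trivial on `Gal(Ω/K')`. -/
theorem exists_kummer_level (n : ℕ) (hn : n ≠ 0) (ζ : K) (hζ : IsPrimitiveRoot ζ n)
    (hfin : (powMonoidHom n : Kˣ →* Kˣ).range.index ≠ 0) :
    ∃ K' : IntermediateField K Ω, FiniteDimensional K K' ∧
      ∀ χ : (Ω ≃ₐ[K] Ω) →* Kˣ, (∀ g, χ g ^ n = 1) →
        (∃ M : IntermediateField K Ω, FiniteDimensional K M ∧ M.fixingSubgroup ≤ χ.ker) →
        K'.fixingSubgroup ≤ χ.ker := by
  classical
  haveI : IsAlgClosed Ω := IsAlgClosure.isAlgClosed K
  haveI : Algebra.IsAlgebraic K Ω := IsAlgClosure.isAlgebraic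
  haveI : Normal K Ω := IsAlgClosure.normal K Ω
  obtain ⟨K', hK'fin, hK'⟩ := exists_finite_containing_roots (Ω := Ω) n hn ζ hζ hfin
  refine ⟨K', hK'fin, ?_⟩
  rintro χ hχn ⟨M₀, hM₀fin, hM₀⟩
  -- a finite Galois level through which `χ` factors
  let M : IntermediateField K Ω := IntermediateField.normalClosure K M₀ Ω
  haveI : FiniteDimensional K M := normalClosure.is_finiteDimensional K M₀ Ω
  haveI : Normal K M := normalClosure.normal K M₀ Ω
  haveI : IsGalois K M := ⟨⟩
  have hM : M.fixingSubgroup ≤ χ.ker :=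
    (IntermediateField.fixingSubgroup_le (IntermediateField.le_normalClosure M₀)).trans hM₀
  have hsurj : Function.Surjective (AlgEquiv.restrictNormalHom (F := K) (K₁ := Ω) M) :=
    AlgEquiv.restrictNormalHom_surjective Ω
  have hker : (AlgEquiv.restrictNormalHom (F := K) (K₁ := Ω) M).ker ≤ χ.ker := by
    rw [IntermediateField.restrictNormalHom_ker]
    exact hM
  let χbar : (M ≃ₐ[K] M) →* Kˣ :=
    (AlgEquiv.restrictNormalHom (F := K) (K₁ := Ω) M).liftOfSurjective hsurj ⟨χ, hker⟩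
  have hχbar : ∀ s : Ω ≃ₐ[K] Ω, χbar (AlgEquiv.restrictNormalHom M s) = χ s := fun s =>
    MonoidHom.liftOfRightInverse_comp_apply _ _ (Function.rightInverse_surjInv hsurj) ⟨χ, hker⟩ s
  -- the cocycle
  let f : (M ≃ₐ[K] M) → Mˣ := fun σ => Units.map (algebraMap K M).toMonoidHom (χbar σ)
  have hfval : ∀ σ, ((f σ : Mˣ) : M) = algebraMap K M ((χbar σ : Kˣ) : K) := fun σ => rfl
  have hf : groupCohomology.IsMulCocycle₁ f := by
    intro g h
    apply Units.ext
    rw [Units.val_mul, hfval, hfval, map_mul, Units.val_mul, map_mul]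
    have h1 : ((g • f h : Mˣ) : M) = algebraMap K M ((χbar h : Kˣ) : K) := by
      show g ((f h : Mˣ) : M) = _
      rw [hfval, AlgEquiv.commutes]
    rw [h1, mul_comm]
  obtain ⟨β, hβ⟩ := groupCohomology.isMulCoboundary₁_of_isMulCocycle₁_of_aut_to_units f hf
  have hβ' : ∀ σ : M ≃ₐ[K] M, σ (β : M) = algebraMap K M ((χbar σ : Kˣ) : K) * (β : M) := by
    intro σ
    have h1 := congrArg (fun u : Mˣ => (u : M)) (hβ σ)
    simp only [Units.val_div_eq_div_val] at h1
    have h2 : ((σ • β : Mˣ) : M) = σ (β : M) := rfl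
    rw [h2, hfval] at h1
    rw [← h1]
    field_simp
  -- `β ^ n ∈ K`
  have hfix : ∀ σ : M ≃ₐ[K] M, σ ((β : M) ^ n) = (β : M) ^ n := by
    intro σ
    rw [map_pow, hβ' σ, mul_pow, ← map_pow]
    have h1 : ((χbar σ : Kˣ) : K) ^ n = 1 := by
      obtain ⟨s, hs⟩ := hsurj σ
      rw [← hs, hχbar]
      have := congrArg (fun u : Kˣ => (u : K)) (hχn s)
      simpa using this
    rw [h1, map_one, one_mul]
  obtain ⟨a, ha⟩ : ∃ a : K, algebraMap K M a = (β : M) ^ n :=
    IntermediateField.mem_bot.1 ((IsGalois.mem_bot_iff_fixed ((β : M) ^ n)).2 hfix)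
  have ha0 : a ≠ 0 := by
    rintro rfl
    rw [map_zero] at ha
    exact (pow_ne_zero n β.ne_zero) ha.symm
  have hβK' : ((β : M) : Ω) ∈ K' := by
    refine hK' (Units.mk0 a ha0) _ ?_
    rw [Units.val_mk0]
    have h1 : ((algebraMap K M a : M) : Ω) = (((β : M) ^ n : M) : Ω) := congrArg _ ha
    rw [← IntermediateField.coe_pow, ← h1]
    rfl
  -- conclusion
  intro s hs
  rw [MonoidHom.mem_ker]
  have h1 : s ((β : M) : Ω) = ((β : M) : Ω) :=
    (IntermediateField.mem_fixingSubgroup_iff K' s).1 hs _ hβK'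
  have h2 : ((AlgEquiv.restrictNormalHom M s) (β : M) : Ω) = s ((β : M) : Ω) :=
    AlgEquiv.restrictNormalHom_apply M s (β : M)
  have h3 := hβ' (AlgEquiv.restrictNormalHom M s)
  rw [hχbar] at h3
  have h4 : algebraMap K M ((χ s : Kˣ) : K) * (β : M) = (β : M) := by
    rw [← h3]
    apply Subtype.ext
    rw [h2, h1]
  have h5 : algebraMap K M ((χ s : Kˣ) : K) = 1 := by
    have h6 := mul_right_cancel₀ β.ne_zero (h4.trans (one_mul (β : M)).symm)
    exact h6
  apply Units.ext
  rw [Units.val_one]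
  exact (algebraMap K M).injective (by rw [h5, map_one])

/-- An injective homomorphism `Multiplicative (ZMod n) →* Kˣ` attached to a primitive `n`-th
root of unity. -/
theorem exists_injective_zmod_hom (n : ℕ) (hn : n ≠ 0) (ζ : K) (hζ : IsPrimitiveRoot ζ n) :
    ∃ ι : Multiplicative (ZMod n) →* Kˣ, Function.Injective ι ∧ ∀ x, ι x ^ n = 1 := by
  have hζu := hζ.isUnit_unit hn
  let e : Multiplicative (ZMod n) ≃* Subgroup.zpowers (hζ.isUnit hn).unit :=
    (AddEquiv.toMultiplicativeRight hζu.zmodEquivZPowers.symm).symm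
  refine ⟨(Subgroup.zpowers (hζ.isUnit hn).unit).subtype.comp e.toMonoidHom, ?_, ?_⟩
  · exact (Subgroup.subtype_injective _).comp e.injective
  · intro x
    rw [← map_pow]
    have hx : x ^ n = 1 := by
      apply Multiplicative.toAdd.injective
      rw [toAdd_pow, toAdd_one, nsmul_eq_mul, ZMod.natCast_self, zero_mul]
    rw [hx, map_one]

/-- **Kummer level, `ZMod n`-valued characters.**  If `K ∋ ζ_n` and `Kˣ / (Kˣ)ⁿ` is finite,
there is a finite extension `K' / K` inside `Ω` such that every continuous homomorphism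
`χ : Gal(Ω/K) → ℤ/n` is trivial on `Gal(Ω/K')`. -/
theorem exists_kummer_level_zmod (n : ℕ) (hn : n ≠ 0) (ζ : K) (hζ : IsPrimitiveRoot ζ n)
    (hfin : (powMonoidHom n : Kˣ →* Kˣ).range.index ≠ 0) :
    ∃ K' : IntermediateField K Ω, FiniteDimensional K K' ∧
      ∀ χ : (Ω ≃ₐ[K] Ω) →* Multiplicative (ZMod n),
        (∃ M : IntermediateField K Ω, FiniteDimensional K M ∧ M.fixingSubgroup ≤ χ.ker) →
        K'.fixingSubgroup ≤ χ.ker := by
  obtain ⟨K', hK'fin, hK'⟩ := exists_kummer_level (Ω := Ω) n hn ζ hζ hfin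
  obtain ⟨ι, hι, hιn⟩ := exists_injective_zmod_hom n hn ζ hζ
  refine ⟨K', hK'fin, ?_⟩
  rintro χ ⟨M, hMfin, hM⟩
  have hker : (ι.comp χ).ker = χ.ker := by
    ext g
    simp only [MonoidHom.mem_ker, MonoidHom.comp_apply]
    exact ⟨fun h => hι (h.trans (map_one ι).symm), fun h => by rw [h, map_one]⟩
  have := hK' (ι.comp χ) (fun g => hιn _) ⟨M, hMfin, by rw [hker]; exact hM⟩
  rwa [hker] at this

/-- **Kummer level, additive form.**  Same as `exists_kummer_level_zmod` for maps
`φ : Gal(Ω/K) → ℤ/n` with `φ (g * h) = φ g + φ h`. -/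
theorem exists_kummer_level_add (n : ℕ) (hn : n ≠ 0) (ζ : K) (hζ : IsPrimitiveRoot ζ n)
    (hfin : (powMonoidHom n : Kˣ →* Kˣ).range.index ≠ 0) :
    ∃ K' : IntermediateField K Ω, FiniteDimensional K K' ∧
      ∀ φ : (Ω ≃ₐ[K] Ω) → ZMod n, (∀ g h, φ (g * h) = φ g + φ h) →
        (∃ M : IntermediateField K Ω, FiniteDimensional K M ∧ ∀ g ∈ M.fixingSubgroup, φ g = 0) →
        ∀ g ∈ K'.fixingSubgroup, φ g = 0 := by
  obtain ⟨K', hK'fin, hK'⟩ := exists_kummer_level_zmod (Ω := Ω) n hn ζ hζ hfin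
  refine ⟨K', hK'fin, ?_⟩
  rintro φ hφ ⟨M, hMfin, hM⟩ g hg
  have hφ1 : φ 1 = 0 := by
    have := hφ 1 1
    rw [mul_one] at this
    exact left_eq_add.1 this
  let χ : (Ω ≃ₐ[K] Ω) →* Multiplicative (ZMod n) :=
    { toFun := fun g => Multiplicative.ofAdd (φ g)
      map_one' := by rw [hφ1]; rfl
      map_mul' := fun g h => by rw [hφ g h]; rfl }
  have h1 : K'.fixingSubgroup ≤ χ.ker :=
    hK' χ ⟨M, hMfin, fun g hg => by
      rw [MonoidHom.mem_ker]
      show Multiplicative.ofAdd (φ g) = 1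
      rw [hM g hg]; rfl⟩
  have h2 := h1 hg
  rw [MonoidHom.mem_ker] at h2
  exact Multiplicative.ofAdd.injective h2

end KummerLevel

end Fermat.Agent.S55.H424
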