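import Fermat.Agent.S55.H424.PowBij

/-!
# LPI (local power index), part 2: the index of `n`-th powers in the unit group

Setting: a commutative ring `A`, a non-zero-divisor `ϖ : A` such that `A` is `ϖ`-adically
complete with `A ⧸ (ϖ)` finite, and `n ≠ 0` with `(n : A) ∣ ϖ ^ v`.

Main result:

* `H424.index_range_pow_units` :
  `[Aˣ : (Aˣ) ^ n] = |μ_n(A)| * |A ⧸ (n)|`.
-/

set_option autoImplicit false

namespace Fermat.Agent.S55.H424

variable {A : Type*} [CommRing A]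

/-- Units congruent to `1` modulo `x`. -/
def congrUnits (x : A) : Subgroup Aˣ where
  carrier := {u | x ∣ (u : A) - 1}
  one_mem' := by
    show x ∣ ((1 : Aˣ) : A) - 1
    simp
  mul_mem' := by
    intro u u' hu hu'
    have hu1 : x ∣ (u : A) - 1 := hu
    have hu2 : x ∣ (u' : A) - 1 := hu'
    show x ∣ ((u * u' : Aˣ) : A) - 1
    have h1 : ((u * u' : Aˣ) : A) - 1 = ((u : A) - 1) * u' + ((u' : A) - 1) := by
      push_cast; ring
    rw [h1]
    exact dvd_add (hu1.mul_right _) hu2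
  inv_mem' := by
    intro u hu
    have hu1 : x ∣ (u : A) - 1 := hu
    show x ∣ ((u⁻¹ : Aˣ) : A) - 1
    have h1 : ((u⁻¹ : Aˣ) : A) - 1 = -(((u⁻¹ : Aˣ) : A) * ((u : A) - 1)) := by
      rw [mul_sub, Units.inv_mul]; ring
    rw [h1]
    exact (dvd_neg).2 (hu1.mul_left _)

lemma mem_congrUnits {x : A} {u : Aˣ} : u ∈ congrUnits x ↔ x ∣ (u : A) - 1 := Iff.rfl

lemma congrUnits_mono {x y : A} (h : x ∣ y) : congrUnits y ≤ congrUnits x :=
  fun _ hu => h.trans hu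

lemma congrUnits_eq_ker (x : A) :
    congrUnits x
      = (Units.map (Ideal.Quotient.mk (Ideal.span {x})).toMonoidHom).ker := by
  ext u
  rw [mem_congrUnits, MonoidHom.mem_ker, Units.ext_iff, Units.coe_map, Units.val_one]
  change _ ↔ Ideal.Quotient.mk (Ideal.span {x}) (u : A) = 1
  rw [← map_one (Ideal.Quotient.mk (Ideal.span {x})), Ideal.Quotient.eq,
    Ideal.mem_span_singleton]

lemma congrUnits_index_ne_zero (x : A) [Finite (A ⧸ Ideal.span {x})] :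
    (congrUnits x).index ≠ 0 := by
  rw [congrUnits_eq_ker, Subgroup.index_ker]
  exact Nat.card_pos.ne'

/-- If `ϖ` is a non-zero-divisor, so are its powers. -/
lemma pow_nzd {ϖ : A} (hϖ : ∀ x : A, ϖ * x = 0 → x = 0) (k : ℕ) :
    ∀ x : A, ϖ ^ k * x = 0 → x = 0 := by
  induction k with
  | zero => intro x hx; simpa using hx
  | succ k ih =>
    intro x hx
    apply ih
    apply hϖ
    rw [← hx]; ring

lemma pow_mul_cancel {ϖ : A} (hϖ : ∀ x : A, ϖ * x = 0 → x = 0) (k : ℕ) {x y : A}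
    (h : ϖ ^ k * x = ϖ ^ k * y) : x = y := by
  have h1 : ϖ ^ k * (x - y) = 0 := by rw [mul_sub, h, sub_self]
  exact sub_eq_zero.1 (pow_nzd hϖ k _ h1)

/-- If `x ≡ 1 mod ϖ ^ m`, `(n : A) ∣ ϖ ^ v` and `v ≤ m`, then `x ^ n ≡ 1 mod n * ϖ ^ m`. -/
lemma natCast_mul_pow_dvd_pow_sub_one {ϖ : A} {n v m : ℕ} (hN : (n : A) ∣ ϖ ^ v)
    (hm : v ≤ m) {x : A} (hx : ϖ ^ m ∣ x - 1) : (n : A) * ϖ ^ m ∣ x ^ n - 1 := by
  obtain ⟨w, hw⟩ := hN
  obtain ⟨a, ha⟩ := hx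
  obtain ⟨d, rfl⟩ := Nat.exists_eq_add_of_le hm
  obtain ⟨c, hc⟩ := one_add_pow_expand (ϖ ^ (v + d) * a) n
  have hx' : x = 1 + ϖ ^ (v + d) * a := by rw [← ha]; ring
  have h1 : (ϖ ^ (v + d) * a) ^ 2 = ϖ ^ v * (ϖ ^ (v + d) * (ϖ ^ d * a ^ 2)) := by ring
  rw [hx', hc, h1, hw]
  refine ⟨a + c * w * (ϖ ^ d * a ^ 2), ?_⟩
  ring

section Complete

variable (ϖ : A)

/-- The image of `1 + ϖ ^ m A` under `x ↦ x ^ n` is `1 + n ϖ ^ m A` for `m ≥ v + 1`. -/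
theorem map_pow_congrUnits [IsAdicComplete (Ideal.span {ϖ}) A] {n v m : ℕ} (hn : n ≠ 0)
    (hN : (n : A) ∣ ϖ ^ v) (hm : v + 1 ≤ m) :
    (congrUnits (ϖ ^ m)).map (powMonoidHom n : Aˣ →* Aˣ) = congrUnits ((n : A) * ϖ ^ m) := by
  ext w
  constructor
  · rintro ⟨u, hu, rfl⟩
    rw [mem_congrUnits]
    have h1 := natCast_mul_pow_dvd_pow_sub_one hN (Nat.le_of_succ_le hm) (mem_congrUnits.1 hu)
    simpa using h1
  · intro hw
    obtain ⟨x, hx1, hx2⟩ := exists_pow_eq ϖ hN hm (mem_congrUnits.1 hw)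
    have hxu : IsUnit x := by
      have h2 : IsUnit (x ^ n) := by rw [hx2]; exact w.isUnit
      exact (isUnit_pow_iff hn).1 h2
    obtain ⟨u, rfl⟩ := hxu
    refine ⟨u, hx1, ?_⟩
    apply Units.ext
    simpa using hx2

/-- `x ↦ x ^ n` is injective on `1 + ϖ ^ m A` for `m ≥ v + 1`. -/
theorem ker_pow_inf_congrUnits [IsHausdorff (Ideal.span {ϖ}) A] {n v m : ℕ}
    (hN : (n : A) ∣ ϖ ^ v) (hnzd : ∀ x : A, (n : A) * x = 0 → x = 0) (hm : v + 1 ≤ m) :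
    congrUnits (ϖ ^ m) ⊓ (powMonoidHom n : Aˣ →* Aˣ).ker = ⊥ := by
  rw [eq_bot_iff]
  rintro u ⟨hu1, hu2⟩
  rw [Subgroup.mem_bot]
  apply Units.ext
  rw [Units.val_one]
  refine eq_one_of_pow_eq_one ϖ hN hnzd hm (mem_congrUnits.1 hu1) ?_
  have h1 : u ^ n = 1 := by simpa [MonoidHom.mem_ker] using hu2
  have h2 := congrArg (fun z : Aˣ => (z : A)) h1
  simpa using h2

/-- `1 + ϖ x` is a unit in a `ϖ`-adically complete ring. -/
lemma isUnit_one_add_mul [IsAdicComplete (Ideal.span {ϖ}) A] (x : A) : IsUnit (1 + ϖ * x) := by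
  have h1 : ϖ ∈ (⊥ : Ideal A).jacobson :=
    IsAdicComplete.le_jacobson_bot (Ideal.span {ϖ}) (Ideal.mem_span_singleton_self ϖ)
  have h2 := Ideal.mem_jacobson_bot.1 h1 x
  rwa [add_comm] at h2

/-- The "logarithm to first order" `u ↦ (u - 1) / ϖ ^ m`. -/
noncomputable def congrQuot (m : ℕ) (u : congrUnits (ϖ ^ m)) : A := Classical.choose u.2

lemma congrQuot_spec (m : ℕ) (u : congrUnits (ϖ ^ m)) :
    ((u : Aˣ) : A) - 1 = ϖ ^ m * congrQuot ϖ m u := Classical.choose_spec u.2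

/-- The group homomorphism `1 + ϖ ^ m A → A ⧸ (n)`, `1 + ϖ ^ m t ↦ t`, for `m ≥ v`. -/
noncomputable def congrQuotHom (hϖ : ∀ x : A, ϖ * x = 0 → x = 0) {n v m : ℕ}
    (hN : (n : A) ∣ ϖ ^ v) (hm : v ≤ m) :
    congrUnits (ϖ ^ m) →* Multiplicative (A ⧸ Ideal.span {(n : A)}) where
  toFun u := Multiplicative.ofAdd (Ideal.Quotient.mk _ (congrQuot ϖ m u))
  map_one' := by
    have h1 := congrQuot_spec ϖ m (1 : congrUnits (ϖ ^ m))
    have h2 : congrQuot ϖ m (1 : congrUnits (ϖ ^ m)) = 0 := by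
      apply pow_nzd hϖ m
      rw [← h1]; simp
    rw [h2, map_zero, ofAdd_zero]
  map_mul' := by
    intro u u'
    rw [← ofAdd_add, ← map_add]
    congr 1
    rw [Ideal.Quotient.eq, Ideal.mem_span_singleton]
    have h1 := congrQuot_spec ϖ m u
    have h2 := congrQuot_spec ϖ m u'
    have h3 := congrQuot_spec ϖ m (u * u')
    have h4 : congrQuot ϖ m (u * u')
        = congrQuot ϖ m u + congrQuot ϖ m u' + ϖ ^ m * (congrQuot ϖ m u * congrQuot ϖ m u') := by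
      apply pow_mul_cancel hϖ m
      rw [← h3]
      have h5 : (((u * u' : congrUnits (ϖ ^ m)) : Aˣ) : A) - 1
          = (((u : Aˣ) : A) - 1) + (((u' : Aˣ) : A) - 1)
            + (((u : Aˣ) : A) - 1) * (((u' : Aˣ) : A) - 1) := by
        push_cast; ring
      rw [h5, h1, h2]; ring
    rw [h4]
    obtain ⟨w, hw⟩ := hN
    obtain ⟨d, rfl⟩ := Nat.exists_eq_add_of_le hm
    refine ⟨w * ϖ ^ d * (congrQuot ϖ (v + d) u * congrQuot ϖ (v + d) u'), ?_⟩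
    rw [pow_add, hw]; ring

lemma congrQuotHom_apply (hϖ : ∀ x : A, ϖ * x = 0 → x = 0) {n v m : ℕ}
    (hN : (n : A) ∣ ϖ ^ v) (hm : v ≤ m) (u : congrUnits (ϖ ^ m)) :
    congrQuotHom ϖ hϖ hN hm u
      = Multiplicative.ofAdd (Ideal.Quotient.mk _ (congrQuot ϖ m u)) := rfl

lemma congrQuotHom_ker (hϖ : ∀ x : A, ϖ * x = 0 → x = 0) {n v m : ℕ}
    (hN : (n : A) ∣ ϖ ^ v) (hm : v ≤ m) :
    (congrQuotHom ϖ hϖ hN hm).ker
      = (congrUnits ((n : A) * ϖ ^ m)).subgroupOf (congrUnits (ϖ ^ m)) := by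
  ext u
  rw [MonoidHom.mem_ker, congrQuotHom_apply, Subgroup.mem_subgroupOf, mem_congrUnits,
    congrQuot_spec ϖ m u]
  have h0 : Multiplicative.ofAdd (Ideal.Quotient.mk (Ideal.span {(n : A)}) (congrQuot ϖ m u)) = 1
      ↔ (n : A) ∣ congrQuot ϖ m u := by
    rw [← ofAdd_zero, Multiplicative.ofAdd.apply_eq_iff_eq, Ideal.Quotient.eq_zero_iff_mem,
      Ideal.mem_span_singleton]
  rw [h0]
  constructor
  · rintro ⟨s, hs⟩
    exact ⟨s, by rw [hs]; ring⟩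
  · rintro ⟨s, hs⟩
    refine ⟨s, ?_⟩
    apply pow_mul_cancel hϖ m
    rw [hs]; ring

lemma congrQuotHom_surjective [IsAdicComplete (Ideal.span {ϖ}) A]
    (hϖ : ∀ x : A, ϖ * x = 0 → x = 0) {n v m : ℕ}
    (hN : (n : A) ∣ ϖ ^ v) (hm : v ≤ m) (hm1 : 1 ≤ m) :
    Function.Surjective (congrQuotHom ϖ hϖ hN hm) := by
  intro y
  obtain ⟨t, ht⟩ := Ideal.Quotient.mk_surjective (Multiplicative.toAdd y)
  obtain ⟨d, rfl⟩ := Nat.exists_eq_add_of_le hm1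
  have hu : IsUnit (1 + ϖ * (ϖ ^ d * t)) := isUnit_one_add_mul ϖ _
  obtain ⟨u, hu⟩ := hu
  have hmem : u ∈ congrUnits (ϖ ^ (1 + d)) := by
    rw [mem_congrUnits, hu]
    exact ⟨t, by ring⟩
  refine ⟨⟨u, hmem⟩, ?_⟩
  rw [congrQuotHom_apply]
  have h1 := congrQuot_spec ϖ (1 + d) ⟨u, hmem⟩
  have h2 : congrQuot ϖ (1 + d) ⟨u, hmem⟩ = t := by
    apply pow_mul_cancel hϖ (1 + d)
    rw [← h1]
    change (u : A) - 1 = _
    rw [hu]; ring
  rw [h2, ht]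
  rfl

/-- `[1 + ϖ ^ m A : 1 + n ϖ ^ m A] = |A ⧸ (n)|` for `m ≥ max v 1`. -/
theorem relIndex_congrUnits [IsAdicComplete (Ideal.span {ϖ}) A]
    (hϖ : ∀ x : A, ϖ * x = 0 → x = 0) {n v m : ℕ}
    (hN : (n : A) ∣ ϖ ^ v) (hm : v ≤ m) (hm1 : 1 ≤ m) :
    (congrUnits ((n : A) * ϖ ^ m)).relIndex (congrUnits (ϖ ^ m))
      = Nat.card (A ⧸ Ideal.span {(n : A)}) := by
  rw [Subgroup.relIndex, ← congrQuotHom_ker ϖ hϖ hN hm, Subgroup.index_ker,
    MonoidHom.range_eq_top.2 (congrQuotHom_surjective ϖ hϖ hN hm hm1)]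
  rw [Nat.card_congr (Subgroup.topEquiv (G := Multiplicative (A ⧸ Ideal.span {(n : A)}))).toEquiv]
  exact Nat.card_congr Multiplicative.toAdd

lemma ker_powMonoidHom_units (n : ℕ) :
    (powMonoidHom n : Aˣ →* Aˣ).ker = rootsOfUnity n A := by
  ext u
  rw [MonoidHom.mem_ker, mem_rootsOfUnity]
  rfl

/-- **Local power index, unit form.** For a `ϖ`-adically complete ring `A` with `ϖ` a
non-zero-divisor, `A ⧸ (ϖ)` finite, `n ≠ 0` and `(n : A) ∣ ϖ ^ v`: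
`[Aˣ : (Aˣ) ^ n] = |μ_n(A)| * |A ⧸ (n)|`. -/
theorem index_range_pow_units [IsAdicComplete (Ideal.span {ϖ}) A]
    [Finite (A ⧸ Ideal.span {ϖ})]
    (hϖ : ∀ x : A, ϖ * x = 0 → x = 0) {n v : ℕ} (hn : n ≠ 0) (hN : (n : A) ∣ ϖ ^ v) :
    (powMonoidHom n : Aˣ →* Aˣ).range.index
      = Nat.card (rootsOfUnity n A) * Nat.card (A ⧸ Ideal.span {(n : A)}) := by
  set φ : Aˣ →* Aˣ := powMonoidHom n with hφ
  set V : Subgroup Aˣ := congrUnits (ϖ ^ (v + 1)) with hV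
  set V' : Subgroup Aˣ := congrUnits ((n : A) * ϖ ^ (v + 1)) with hV'
  have hnzd := natCast_nzd_of_dvd_pow hϖ hN
  -- `V` has finite index
  have : Finite (A ⧸ Ideal.span {ϖ ^ (v + 1)}) := by
    rw [← Ideal.span_singleton_pow]
    exact Ideal.finite_quotient_pow ⟨{ϖ}, by simp⟩ (v + 1)
  have hVfin : V.index ≠ 0 := congrUnits_index_ne_zero _
  -- the four index identities
  have e1 : (V.map φ).index = (V ⊔ φ.ker).index * φ.range.index := Subgroup.index_map V φ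
  have e2 : V.map φ = V' := map_pow_congrUnits ϖ hn hN le_rfl
  have e3 : V'.relIndex V * V.index = V'.index :=
    Subgroup.relIndex_mul_index (congrUnits_mono (Dvd.intro_left _ rfl))
  have e4 : V.relIndex (V ⊔ φ.ker) * (V ⊔ φ.ker).index = V.index :=
    Subgroup.relIndex_mul_index le_sup_left
  have e5 : V.relIndex (V ⊔ φ.ker) = Nat.card (rootsOfUnity n A) := by
    rw [Subgroup.relIndex_sup_left, ← Subgroup.inf_relIndex_right,
      ker_pow_inf_congrUnits ϖ hN hnzd le_rfl, Subgroup.relIndex_bot_left,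
      ker_powMonoidHom_units]
  have e6 : V'.relIndex V = Nat.card (A ⧸ Ideal.span {(n : A)}) :=
    relIndex_congrUnits ϖ hϖ hN (Nat.le_succ v) (Nat.succ_le_succ (Nat.zero_le v))
  have hne : (V ⊔ φ.ker).index ≠ 0 := by
    intro h0
    rw [h0, mul_zero] at e4
    exact hVfin e4.symm
  rw [e2, ← e3, ← e4, e5, e6] at e1
  -- cancel
  have e7 : (V ⊔ φ.ker).index * (Nat.card (rootsOfUnity n A) * Nat.card (A ⧸ Ideal.span {(n : A)}))
      = (V ⊔ φ.ker).index * φ.range.index := by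
    rw [← e1]; ring
  exact (Nat.eq_of_mul_eq_mul_left (Nat.pos_of_ne_zero hne) e7).symm

/-- In the setting of `index_range_pow_units`, the group of `n`-th powers has finite index. -/
theorem index_range_pow_units_ne_zero [IsAdicComplete (Ideal.span {ϖ}) A]
    [Finite (A ⧸ Ideal.span {ϖ})]
    (hϖ : ∀ x : A, ϖ * x = 0 → x = 0) {n v : ℕ} (hn : n ≠ 0) (hN : (n : A) ∣ ϖ ^ v) :
    (powMonoidHom n : Aˣ →* Aˣ).range.index ≠ 0 := by
  have hnzd := natCast_nzd_of_dvd_pow hϖ hN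
  have : Finite (A ⧸ Ideal.span {ϖ ^ (v + 1)}) := by
    rw [← Ideal.span_singleton_pow]
    exact Ideal.finite_quotient_pow ⟨{ϖ}, by simp⟩ (v + 1)
  have : Finite (A ⧸ Ideal.span {ϖ ^ (v + 1 + v)}) := by
    rw [← Ideal.span_singleton_pow]
    exact Ideal.finite_quotient_pow ⟨{ϖ}, by simp⟩ (v + 1 + v)
  -- `(Aˣ)^n ⊇ 1 + n ϖ^(v+1) A ⊇ 1 + ϖ^(2v+1) A`
  have h1 : congrUnits (ϖ ^ (v + 1 + v)) ≤ (powMonoidHom n : Aˣ →* Aˣ).range := by
    have h2 : congrUnits (ϖ ^ (v + 1 + v)) ≤ congrUnits ((n : A) * ϖ ^ (v + 1)) := by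
      apply congrUnits_mono
      obtain ⟨w, hw⟩ := hN
      exact ⟨w, by rw [pow_add, hw]; ring⟩
    refine h2.trans ?_
    rw [← map_pow_congrUnits ϖ hn hN le_rfl]
    rintro _ ⟨u, _, rfl⟩
    exact ⟨u, rfl⟩
  intro h0
  have h3 := Subgroup.index_dvd_of_le h1
  rw [h0, zero_dvd_iff] at h3
  exact congrUnits_index_ne_zero (ϖ ^ (v + 1 + v)) h3

end Complete

end Fermat.Agent.S55.H424
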